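import Mathlib
import Fermat.Agent.LT.T7.H140.DownBasisQSpec
import Fermat.Agent.LT.T7.H534.WBasisSpec

/-!
# Row LT, tower T7, NODE T7.L2Q.3.7.4 `SDQ140.WBasisQC` -- THE CUT, level 3 (helper341)

OFF-MAIN.  Definitions and frozen Props; the assembly `wBasisQC_of341` is in `WBasisQTop.lean`.
No hole, nothing assumed.  ADDITIVE (new names only, suffix `341`, namespace `WBQ341`).
Typed MIRROR over `ℚ` (with the `K_∞`-type `n`) of `LT/T7/H534/WBasisSpec.lean`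
(helper534@f2b76c564, byte-identical copy); `SD534.ProjBasisC` (Mathlib only, abstract) is
REUSED verbatim.

    WBasisQC n  ⟸  CuspFormQC n + WSubQC n + V2SubQC341 n + V2BasisQC341 n + IwProjQC341 n
                     + SD534.ProjBasisC

Notation: `V` = the cusp functions over `ℚ` of level `𝔫` and type `n.type` (`SDQ140.InVQ`);
`V₂ ⊆ V` = those which are invariant under the positive scalars at the real place (`InV2Q341`:
the class `L2Q.IsWFnQ` WITHOUT the Iwahori condition); `W ⊆ V₂` = the members which are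
invariant under the Iwahori subgroup at `u` (`SDQ140.InWQ`).

* `V2SubQC341 n`   : `V₂` and its eigen-classes are linear subspaces, `W ⊆ V₂`.
* `V2BasisQC341 n` (NODE; tower T2 in the class of T5 for `(ℚ, 𝔫, n.type)`,
  `T2.cuspSpecT_closed`, + admissibility at the real place): an orthonormal sequence of joint
  eigenfunctions of type `n`, complete in `V₂`, with FINITE classes (per `EigData`, normalised)
  which EXHAUST the eigenfunctions, unitary data `SDQ140.IsUnitOutQ`.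
* `IwProjQC341 n`  : the Iwahori projector `P` = the average over `I_u / U(𝔫)_u`: linear,
  `V₂ → W`, `⟨P ψ, χ⟩ = ⟨ψ, χ⟩` for `χ ∈ W`, and `P` preserves the eigen-data.
-/

set_option autoImplicit false
set_option linter.unusedSectionVars false
set_option linter.unusedVariables false

open AutomorphicForm IsDedekindDomain NumberField MeasureTheory
open scoped ComplexConjugate

noncomputable section

namespace Fermat.Agent.LT.T7.WBQ341

open Fermat.Agent.LT.H556 Fermat.Agent.LT.H556.A0 Fermat.Agent.LT.H670 Fermat.Agent.LT.T7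
open Fermat.Agent.LT.T7.L2Q Fermat.Agent.LT.T7.SDQ140

attribute [local instance] Fermat.Agent.LT.T5.instMeasurableSpaceG

section Defs

/-- `ψ ∈ V₂`: a cusp function over `ℚ` of level `𝔫` and type `n.type`, invariant under the
positive scalars at the real place (`L2Q.IsWFnQ` without the Iwahori condition). -/
structure InV2Q341 (n : QWt) (𝔫 : Ideal (𝓞 ℚ)) (r : G ℚ) (ψ : G ℚ → ℂ) : Prop where
  cusp : T5.IsCuspFn 𝔫 n.type r ψ
  arch_scalar : ∀ (w : InfinitePlace ℚ) (z : G ℚ), IsArchPosScalar w z →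
    ∀ g : G ℚ, ψ (g * z) = ψ g

/-- `ψ` is a member of `V₂` with joint eigen-data `c` (`L2Q.IsEigFnQ` without the Iwahori
condition). -/
structure InCls2Q341 (n : QWt) (𝔫 : Ideal (𝓞 ℚ)) (r : G ℚ) (c : EigData ℚ) (ψ : G ℚ → ℂ) :
    Prop where
  inv : InV2Q341 n 𝔫 r ψ
  hecke : ∀ v : HeightOneSpectrum (𝓞 ℚ), ¬ v.asIdeal ∣ 𝔫 → IsHeckeEigenAt ψ v (c.a v) (c.b v)
  mean : ∀ w : InfinitePlace ℚ, n.MeanEig ψ w (c.m w)

/-- `V₂` and its classes are linear subspaces; `W ⊆ V₂ ⊆ V`. -/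
structure IsV2SubQ341 (n : QWt) (𝔫 : Ideal (𝓞 ℚ)) (r : G ℚ) (u : HeightOneSpectrum (𝓞 ℚ)) :
    Prop where
  zero2 : InV2Q341 n 𝔫 r (0 : G ℚ → ℂ)
  add2 : ∀ f f' : G ℚ → ℂ, InV2Q341 n 𝔫 r f → InV2Q341 n 𝔫 r f' → InV2Q341 n 𝔫 r (f + f')
  smul2 : ∀ (a : ℂ) (f : G ℚ → ℂ), InV2Q341 n 𝔫 r f → InV2Q341 n 𝔫 r (a • f)
  addC2 : ∀ (c : EigData ℚ) (f f' : G ℚ → ℂ), InCls2Q341 n 𝔫 r c f → InCls2Q341 n 𝔫 r c f' →
    InCls2Q341 n 𝔫 r c (f + f')
  smulC2 : ∀ (c : EigData ℚ) (a : ℂ) (f : G ℚ → ℂ), InCls2Q341 n 𝔫 r c f →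
    InCls2Q341 n 𝔫 r c (a • f)

/-- An orthonormal sequence of joint eigenfunctions of type `n`, complete in `V₂`, with finite
classes which exhaust the eigenfunctions. -/
structure IsV2BasisQ341 (n : QWt) (μ : Measure (G ℚ)) (F : Set (G ℚ)) (r : G ℚ)
    (𝔫 : Ideal (𝓞 ℚ)) (v : ℕ → G ℚ → ℂ) (J : Set ℕ) (c : ℕ → EigData ℚ) : Prop where
  eig : ∀ j, j ∈ J → InCls2Q341 n 𝔫 r (c j) (v j)
  unit : ∀ j, j ∈ J → IsUnitOutQ 𝔫 (c j)
  norm_one : ∀ j, j ∈ J → T5.innerD μ F (v j) (v j) = 1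
  orth : ∀ i, i ∈ J → ∀ j, j ∈ J → i ≠ j → T5.innerD μ F (v i) (v j) = 0
  parseval : ∀ ψ : G ℚ → ℂ, InV2Q341 n 𝔫 r ψ →
    HasSum (fun j : J => ‖T5.innerD μ F ψ (v j)‖ ^ 2) (T5.innerD μ F ψ ψ).re
  finite : ∀ j₀, j₀ ∈ J → {j : ℕ | j ∈ J ∧ c j = c j₀}.Finite
  exhaust : ∀ j₀, j₀ ∈ J → ∀ ψ : G ℚ → ℂ, InCls2Q341 n 𝔫 r (c j₀) ψ →
    ψ ∈ SD534.clsSpan v J c (c j₀)

/-- The Iwahori projector. -/
structure IsIwProjQ341 (n : QWt) (μ : Measure (G ℚ)) (F : Set (G ℚ)) (r : G ℚ)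
    (𝔫 : Ideal (𝓞 ℚ)) (u : HeightOneSpectrum (𝓞 ℚ)) (P : (G ℚ → ℂ) → (G ℚ → ℂ)) : Prop where
  add : ∀ ψ ψ' : G ℚ → ℂ, P (ψ + ψ') = P ψ + P ψ'
  smul : ∀ (a : ℂ) (ψ : G ℚ → ℂ), P (a • ψ) = a • P ψ
  mem : ∀ ψ : G ℚ → ℂ, InV2Q341 n 𝔫 r ψ → InWQ n 𝔫 r u (P ψ)
  inner : ∀ ψ : G ℚ → ℂ, InV2Q341 n 𝔫 r ψ → ∀ χ : G ℚ → ℂ, InWQ n 𝔫 r u χ →
    T5.innerD μ F (P ψ) χ = T5.innerD μ F ψ χ
  cls : ∀ (c : EigData ℚ) (ψ : G ℚ → ℂ), InCls2Q341 n 𝔫 r c ψ → InClsQ n 𝔫 r u c (P ψ)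

theorem InV2Q341.inV {n : QWt} {𝔫 : Ideal (𝓞 ℚ)} {r : G ℚ} {ψ : G ℚ → ℂ}
    (h : InV2Q341 n 𝔫 r ψ) : InVQ n 𝔫 r ψ := h.cusp

/-- `W ⊆ V₂` (no hypothesis: drop the Iwahori condition). -/
theorem inV2Q_of_inWQ341 {n : QWt} {𝔫 : Ideal (𝓞 ℚ)} {r : G ℚ} {u : HeightOneSpectrum (𝓞 ℚ)}
    {χ : G ℚ → ℂ} (h : InWQ n 𝔫 r u χ) : InV2Q341 n 𝔫 r χ :=
  ⟨h.cusp, h.arch_scalar⟩

/-- An eigenfunction in `W` is an eigenfunction in `V₂`. -/
theorem inCls2Q_of_inClsQ341 {n : QWt} {𝔫 : Ideal (𝓞 ℚ)} {r : G ℚ}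
    {u : HeightOneSpectrum (𝓞 ℚ)} {c : EigData ℚ} {ψ : G ℚ → ℂ} (h : InClsQ n 𝔫 r u c ψ) :
    InCls2Q341 n 𝔫 r c ψ :=
  ⟨inV2Q_of_inWQ341 h.inv, h.hecke, h.mean⟩

/-- A member of `W` which is an eigenfunction in `V₂` is an eigenfunction in `W`. -/
theorem inClsQ_of_inCls2Q341 {n : QWt} {𝔫 : Ideal (𝓞 ℚ)} {r : G ℚ}
    {u : HeightOneSpectrum (𝓞 ℚ)} {c : EigData ℚ} {ψ : G ℚ → ℂ} (h : InCls2Q341 n 𝔫 r c ψ)
    (hW : InWQ n 𝔫 r u ψ) : InClsQ n 𝔫 r u c ψ :=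
  ⟨hW, h.hecke, h.mean⟩

end Defs

/-! ## The leaves -/

section Leaves

/-- **WBQ.1 SUBSPACES of `V₂`** (typed form of `SD534.V2SubC`).  Every condition of
`T5.IsCuspFn`, of the invariance under the positive scalars and of `L2Q.IsEigFnQ` (Hecke
eigenfunction, eigenfunction of the circle means of type `n`) is linear.  (As `SDQ140.WSubQC`
without the Iwahori condition; the constant term needs the integrability of a bounded continuous
function on a fundamental domain of `ℚ` in `𝔸_ℚ`: T1.) -/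
def V2SubQC341 (n : QWt) : Prop :=
  ∀ (𝔫 : Ideal (𝓞 ℚ)) (r : G ℚ) (u : HeightOneSpectrum (𝓞 ℚ)), IsV2SubQ341 n 𝔫 r u

/-- **WBQ.2 = NODE `V₂`-BASIS over `ℚ`, type `n`** (typed form of `SD534.V2BasisC`).
Route: `T2.cuspSpecT_closed` for `(ℚ, 𝔫, n.type)` (tower T2 in the class of T5: closed for EVERY
number field, level and `K_∞`-type) restricted to the functions invariant under the positive
scalars at the real place (the projector on them commutes with all the operators: R3 of the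
architect); the circle means of T2 (`T2.MeanEigRT`, `rotY θ` = rotation of angle `θ/2`) are those
of `L2Q.MeanEigR0` / `L2Q.MeanEigR1` (`QOut.rotC θ = k_{-θ}`); ADMISSIBILITY at the real place
(the members with given eigenvalue functions of the circle means are finite in number: real
form of `T2.finite_meanClass130`), so the classes PER `EigData` are finite.  The eigen-data are
NORMALISED (`0` at the places dividing `𝔫` and at the radii `t ≤ 0`): same class ⟺ EQUAL data.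
Unitarity `IsUnitOutQ`: `T2.IsCuspBasisT` (`unit_b`, `conj_a`, `bound_a`, `real_m`) and
`|m| ≤ 2π`.  Exhaustion: an eigenfunction with the data of a class is orthogonal to the members
of the other classes (`T_v`, `S_v` normal, the circle means self-adjoint), hence in the span of
its class (Parseval + definiteness). -/
def V2BasisQC341 (n : QWt) : Prop :=
  ∀ (μ : Measure (G ℚ)) (F : Set (G ℚ)) (r : G ℚ) (𝔫 : Ideal (𝓞 ℚ)), 𝔫 ≠ ⊥ →
    T5.IsKType n.type → T5.IsFrame μ F → T5.IsRayGen r →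
      ∃ (v : ℕ → G ℚ → ℂ) (J : Set ℕ) (c : ℕ → EigData ℚ), IsV2BasisQ341 n μ F r 𝔫 v J c

/-- **WBQ.3 IWAHORI PROJECTOR over `ℚ`, type `n`** (typed form of `SD534.IwProjC`; the
`K_∞`-type plays no role).  For `u ∣ 𝔫`: `P ψ = |H₀|⁻¹ ∑_{h ∈ H₀} ψ(· h)`, `H₀` a system of
representatives of `I_u / U(𝔫)_u` (elements at `u`).  `P ψ` is Iwahori invariant; the elements
at `u` commute with the Hecke operators at `v ∤ 𝔫`, with the circle means and with the elements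
of `K_∞`; right translation by `h ∈ I_u` preserves `⟨ , ⟩` and fixes `χ ∈ W`. -/
def IwProjQC341 (n : QWt) : Prop :=
  ∀ (μ : Measure (G ℚ)) (F : Set (G ℚ)) (r : G ℚ) (𝔫 : Ideal (𝓞 ℚ))
    (u : HeightOneSpectrum (𝓞 ℚ)), 𝔫 ≠ ⊥ → T5.IsKType n.type → T5.IsFrame μ F →
    T5.IsRayGen r → u.asIdeal ∣ 𝔫 →
      ∃ P : (G ℚ → ℂ) → (G ℚ → ℂ), IsIwProjQ341 n μ F r 𝔫 u P

end Leaves

end Fermat.Agent.LT.T7.WBQ341

end
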