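import Mathlib
import Fermat.Agent.LT.T7.H341.WBasisQSpec
import Fermat.Agent.LT.T7.H140.DownBasisQTop
import Fermat.Agent.LT.T7.H534.DownBasisTop

/-!
# Row LT, tower T7, NODE T7.L2Q.3.7.4 `SDQ140.WBasisQC` -- THE ASSEMBLY (helper341)

OFF-MAIN.  PROVED: `wBasisQC_of341 : CuspFormQC n → WSubQC n → V2SubQC341 n → V2BasisQC341 n →
IwProjQC341 n → SD534.ProjBasisC → SDQ140.WBasisQC n` (VERBATIM vs `H140/DownBasisQSpec.lean`
ccac08d3).  No hole, nothing assumed.  ADDITIVE.  Mirror of `wBasisC_of534` (helper534).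
-/

set_option autoImplicit false
set_option linter.unusedSectionVars false
set_option linter.unusedVariables false

open AutomorphicForm IsDedekindDomain NumberField MeasureTheory
open scoped ComplexConjugate

noncomputable section

namespace Fermat.Agent.LT.T7.WBQ341

open Fermat.Agent.LT.H556 Fermat.Agent.LT.H556.A0 Fermat.Agent.LT.H670 Fermat.Agent.LT.T7
open Fermat.Agent.LT.T7.L2Q Fermat.Agent.LT.T7.SDQ140

attribute [local instance] Fermat.Agent.LT.T5.instMeasurableSpaceG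

section Top

/-- `V₂` as a submodule of the functions. -/
def v2SubQ341 {n : QWt} {𝔫 : Ideal (𝓞 ℚ)} {r : G ℚ} {u : HeightOneSpectrum (𝓞 ℚ)}
    (h : IsV2SubQ341 n 𝔫 r u) : Submodule ℂ (G ℚ → ℂ) where
  carrier := {ψ | InV2Q341 n 𝔫 r ψ}
  zero_mem' := h.zero2
  add_mem' := fun {a b} ha hb => h.add2 a b ha hb
  smul_mem' := fun a f hf => h.smul2 a f hf

/-- The members of a class span of `V₂` are eigenfunctions with the data of the class. -/
theorem inCls2Q_of_mem341 {n : QWt} {𝔫 : Ideal (𝓞 ℚ)} {r : G ℚ} {u : HeightOneSpectrum (𝓞 ℚ)}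
    (h2 : IsV2SubQ341 n 𝔫 r u) (v : ℕ → G ℚ → ℂ) (J : Set ℕ) (c : ℕ → EigData ℚ)
    (heig : ∀ j, j ∈ J → InCls2Q341 n 𝔫 r (c j) (v j)) (j₀ : ℕ) (hj₀ : j₀ ∈ J)
    (x : G ℚ → ℂ) (hx : x ∈ SD534.clsSpan v J c (c j₀)) : InCls2Q341 n 𝔫 r (c j₀) x := by
  unfold SD534.clsSpan at hx
  induction hx using Submodule.span_induction with
  | mem f hf =>
    obtain ⟨j, hj, hc, rfl⟩ := hf
    rw [← hc]
    exact heig j hj
  | zero =>
    have h := h2.smulC2 (c j₀) 0 (v j₀) (heig j₀ hj₀)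
    rwa [zero_smul] at h
  | add f f' _ _ hf hf' => exact h2.addC2 (c j₀) f f' hf hf'
  | smul a f _ hf => exact h2.smulC2 (c j₀) a f hf

/-- **THE ASSEMBLY of the node W-BASIS over `ℚ`.** -/
theorem wBasisQC_of341 (n : QWt) (hForm : CuspFormQC n) (hSub : WSubQC n)
    (hV2 : V2SubQC341 n) (hV2B : V2BasisQC341 n) (hIw : IwProjQC341 n)
    (hPB : SD534.ProjBasisC) : WBasisQC n := by
  classical
  intro μ F r 𝔫 u hlev hty hfr hray hu
  have hF := hForm μ F r 𝔫 hlev hty hfr hray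
  have hS := hSub 𝔫 r u
  have h2 := hV2 𝔫 r u
  obtain ⟨v, J₀, c₀, hv⟩ := hV2B μ F r 𝔫 hlev hty hfr hray
  obtain ⟨P, hP⟩ := hIw μ F r 𝔫 u hlev hty hfr hray hu
  have hP0 : P 0 = 0 := by
    have h := hP.smul 0 0
    rwa [zero_smul, zero_smul] at h
  have hPcls : ∀ a : EigData ℚ, ∀ x ∈ SD534.clsSpan v J₀ c₀ a,
      P x ∈ SD534.clsSpan v J₀ c₀ a := by
    intro a x hx
    by_cases hne : ∃ j, j ∈ J₀ ∧ c₀ j = a
    · obtain ⟨j₀, hj₀, rfl⟩ := hne
      have hxc := inCls2Q_of_mem341 h2 v J₀ c₀ hv.eig j₀ hj₀ x hx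
      exact hv.exhaust j₀ hj₀ _ (inCls2Q_of_inClsQ341 (hP.cls _ x hxc))
    · rw [SD534.clsSpan_eq_bot534 v J₀ c₀ a hne] at hx ⊢
      rw [Submodule.mem_bot] at hx
      subst hx
      rw [Submodule.mem_bot]
      exact hP0
  have hWV : wSubQ140 hS ≤ v2SubQ341 h2 := fun χ hχ => inV2Q_of_inWQ341 hχ
  obtain ⟨w, J, cl, hw, hcl, hnorm, horth, hpars, hfin, hexh⟩ :=
    hPB (G ℚ → ℂ) (T5.innerD μ F) (v2SubQ341 h2) (wSubQ140 hS) (EigData ℚ) v J₀ c₀ P hWV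
      (fun x hx y hy z hz =>
        hF.add_left x y z (InV2Q341.inV hx) (InV2Q341.inV hy) (InV2Q341.inV hz))
      (fun a x hx y hy => hF.smul_left a x y (InV2Q341.inV hx) (InV2Q341.inV hy))
      (fun x hx y hy => hF.conj_symm x y (InV2Q341.inV hx) (InV2Q341.inV hy))
      (fun x hx => hF.nonneg x (InV2Q341.inV hx))
      (fun x hx => hF.definite x (InV2Q341.inV hx))
      (fun j hj => (hv.eig j hj).inv)
      hv.norm_one hv.orth
      (fun ψ hψ => hv.parseval ψ hψ)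
      hv.finite hP.add hP.smul
      (fun x hx => hP.mem x hx)
      (fun x hx χ hχ => hP.inner x hx χ hχ)
      hPcls
  have heig : ∀ j, j ∈ J → InClsQ n 𝔫 r u (cl j) (w j) := by
    intro j hj
    obtain ⟨j₀, hj₀, hc⟩ := hcl j hj
    have h1 := (hw j hj).2
    rw [← hc] at h1 ⊢
    exact inClsQ_of_inCls2Q341 (inCls2Q_of_mem341 h2 v J₀ c₀ hv.eig j₀ hj₀ _ h1) (hw j hj).1
  refine ⟨w, J, cl, ⟨heig, ?_, hnorm, horth, fun χ hχ => hpars χ hχ, hfin, ?_⟩⟩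
  · intro j hj
    obtain ⟨j₀, hj₀, hc⟩ := hcl j hj
    rw [← hc]
    exact hv.unit j₀ hj₀
  · intro j₁ hj₁ ψ hψ
    obtain ⟨j₀, hj₀, hc⟩ := hcl j₁ hj₁
    have h1 : InCls2Q341 n 𝔫 r (c₀ j₀) ψ := by
      rw [hc]
      exact inCls2Q_of_inClsQ341 hψ
    have h3 := hv.exhaust j₀ hj₀ ψ h1
    rw [hc] at h3
    exact hexh (cl j₁) ψ hψ.inW h3

end Top

end Fermat.Agent.LT.T7.WBQ341

end
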