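import Fermat.Agent.LT.T7.H341.ChebSplit
import Fermat.Agent.Lib.Cheb.H761.PrimeCountBound
import Fermat.Agent.Lib.Cheb.H761.TwistedPrimeSum

/-!
# Row LT, tower T7, leaf T7.13c `ChebFC` (helper341), part 4: auxiliary lemmas

OFF-MAIN.
* `pc_of_mem341`, `pc_of_not_mem341`: the number of primes of norm `p` of the fixed field of an
  open normal subgroup `H` of `Gal(ℚ̄/ℚ)`, in terms of any Frobenius element at `p`.
* `fib341`: the finite set of places of norm `n` of a number field; its cardinality.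
* `sum_lower341`: the real-analysis part of the argument.
-/

set_option autoImplicit false
set_option linter.unusedSectionVars false
set_option linter.unusedVariables false
set_option linter.style.haveILetI false

open NumberField IsDedekindDomain

namespace Fermat.Agent.LT.T7.H341

open Fermat.Agent.Lib.Cheb Fermat.Agent.Lib.Cheb.Spec

/-! ## Prime counts of fixed fields -/

section PC

variable (H : Subgroup GQ) (hH : IsOpen (H : Set GQ)) [hN : H.Normal]
  [NumberField (IntermediateField.fixedField H)] [IsGalois ℚ (IntermediateField.fixedField H)]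

include hH in
theorem pc_of_mem341 {p : ℕ} (hp : p.Prime)
    (hpB : ¬ p ∣ H943.badNat (IntermediateField.fixedField H))
    (A : ValuationSubring Qb) (hA : A.LiesOverPrime p) (σ : GQ) (hσ : A.IsFrobeniusAt σ p)
    (hmem : σ ∈ H) : primeCount (IntermediateField.fixedField H) p = H.index := by
  obtain ⟨-, -, hfix, hrk⟩ := galois_of_open_normal341 H hH
  rw [← hrk]
  exact primeCount_of_fix341 (IntermediateField.fixedField H) hp hpB A hA σ hσ
    ((hfix σ).mpr hmem)

include hH in
theorem pc_of_not_mem341 {p : ℕ} (hp : p.Prime)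
    (hpB : ¬ p ∣ H943.badNat (IntermediateField.fixedField H))
    (A : ValuationSubring Qb) (hA : A.LiesOverPrime p) (σ : GQ) (hσ : A.IsFrobeniusAt σ p)
    (hmem : σ ∉ H) : primeCount (IntermediateField.fixedField H) p = 0 := by
  obtain ⟨-, -, hfix, -⟩ := galois_of_open_normal341 H hH
  exact primeCount_of_not_fix341 (IntermediateField.fixedField H) hp hpB A hA σ hσ
    (fun h => hmem ((hfix σ).mp h))

include hH in
theorem pc_le_index341 (p : ℕ) : primeCount (IntermediateField.fixedField H) p ≤ H.index := by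
  obtain ⟨-, -, -, hrk⟩ := galois_of_open_normal341 H hH
  rw [← hrk]
  exact H761.primeCountBound_statement (IntermediateField.fixedField H) p

end PC

/-! ## Places of a given norm -/

section Fib

variable (F : Type) [Field F] [NumberField F]

theorem finite_placesOfNorm341 (n : ℕ) :
    {v : HeightOneSpectrum (𝓞 F) | Ideal.absNorm v.asIdeal = n}.Finite := by
  have h := Ideal.finite_setOfPred_absNorm_eq (S := 𝓞 F) n
  refine Set.Finite.of_finite_image (f := fun v : HeightOneSpectrum (𝓞 F) => v.asIdeal)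
    (h.subset ?_) ?_
  · rintro I ⟨v, hv, rfl⟩
    exact hv
  · intro v _ w _ hvw
    exact HeightOneSpectrum.ext hvw

/-- The finite set of places of norm `n`. -/
noncomputable def fib341 (n : ℕ) : Finset (HeightOneSpectrum (𝓞 F)) :=
  (finite_placesOfNorm341 F n).toFinset

theorem mem_fib341 (n : ℕ) (v : HeightOneSpectrum (𝓞 F)) :
    v ∈ fib341 F n ↔ Ideal.absNorm v.asIdeal = n := by
  simp [fib341]

theorem card_fib341 {p : ℕ} (hp : p.Prime) : (fib341 F p).card = primeCount F p := by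
  unfold primeCount
  rw [← Nat.card_eq_finsetCard]
  refine Nat.card_congr ?_
  refine
    { toFun := fun v => ⟨v.1.asIdeal, v.1.isPrime, (mem_fib341 F p v.1).mp v.2⟩
      invFun := fun 𝔮 => ⟨⟨𝔮.1, 𝔮.2.1, ?_⟩, (mem_fib341 F p _).mpr 𝔮.2.2⟩
      left_inv := fun v => ?_
      right_inv := fun 𝔮 => ?_ }
  · intro h
    have := 𝔮.2.2
    rw [h, Ideal.absNorm_bot] at this
    exact hp.ne_zero this.symm
  · apply Subtype.ext
    apply HeightOneSpectrum.ext
    rfl
  · apply Subtype.ext
    rfl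

end Fib

/-! ## The real-analysis part -/

/-- For a summable family of non-negative reals, all large finite partial sums are within `1`
of the sum. -/
theorem exists_finset_sum_ge341 {ι : Type*} (f : ι → ℝ) (hf : Summable f) :
    ∃ U₀ : Finset ι, ∀ U : Finset ι, U₀ ⊆ U → (∑' i, f i) - 1 ≤ ∑ i ∈ U, f i := by
  have h := hf.hasSum
  have h1 : ∀ᶠ U : Finset ι in Filter.atTop, (∑' i, f i) - 1 < ∑ i ∈ U, f i :=
    h.eventually (lt_mem_nhds (by linarith))
  obtain ⟨U₀, hU₀⟩ := Filter.eventually_atTop.mp h1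
  exact ⟨U₀, fun U hU => (hU₀ U hU).le⟩

/-- **The lower bound.**  `fF, fQ, fN ≥ 0` summable over the primes, `w ≥ fF + α fN - α fQ` at
the good primes, `fF + α fN ≤ M` everywhere: then some finite set `U` of good primes has
`∑_U w ≥ ∑ fF + α ∑ fN - α ∑ fQ - (1 + α + M |Bad|)`. -/
theorem sum_lower341 (fF fQ fN w : Nat.Primes → ℝ) (α M : ℝ) (hα : 0 ≤ α)
    (Bad : Finset ℕ)
    (hF : Summable fF) (hQ : Summable fQ) (hNs : Summable fN)
    (hQ0 : ∀ p, 0 ≤ fQ p)
    (hM : ∀ p, fF p + α * fN p ≤ M) (hM0 : 0 ≤ M)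
    (hw : ∀ p : Nat.Primes, (p : ℕ) ∉ Bad → fF p + α * fN p - α * fQ p ≤ w p) :
    ∃ U : Finset Nat.Primes, (∀ p ∈ U, (p : ℕ) ∉ Bad) ∧
      (∑' p, fF p) + α * (∑' p, fN p) - α * (∑' p, fQ p) - (1 + α + M * Bad.card)
        ≤ ∑ p ∈ U, w p := by
  classical
  obtain ⟨U₁, hU₁⟩ := exists_finset_sum_ge341 fF hF
  obtain ⟨U₂, hU₂⟩ := exists_finset_sum_ge341 fN hNs
  set U := U₁ ∪ U₂ with hU
  refine ⟨U.filter (fun p : Nat.Primes => (p : ℕ) ∉ Bad), fun p hp => (Finset.mem_filter.mp hp).2, ?_⟩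
  have h1 := hU₁ U Finset.subset_union_left
  have h2 := hU₂ U Finset.subset_union_right
  -- the bad part
  have hbad : ∑ p ∈ U.filter (fun p : Nat.Primes => ¬ (p : ℕ) ∉ Bad), (fF p + α * fN p) ≤ M * Bad.card := by
    have hc : (U.filter (fun p : Nat.Primes => ¬ (p : ℕ) ∉ Bad)).card ≤ Bad.card := by
      refine Finset.card_le_card_of_injOn (fun p : Nat.Primes => (p : ℕ)) ?_ ?_
      · intro p hp
        have := (Finset.mem_filter.mp hp).2
        exact not_not.mp this
      · intro p _ q _ hpq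
        exact Subtype.ext hpq
    calc ∑ p ∈ U.filter (fun p : Nat.Primes => ¬ (p : ℕ) ∉ Bad), (fF p + α * fN p)
        ≤ ∑ p ∈ U.filter (fun p : Nat.Primes => ¬ (p : ℕ) ∉ Bad), M := Finset.sum_le_sum fun p _ => hM p
      _ = (U.filter (fun p : Nat.Primes => ¬ (p : ℕ) ∉ Bad)).card * M := by
          rw [Finset.sum_const, nsmul_eq_mul]
      _ ≤ Bad.card * M := by
          refine mul_le_mul_of_nonneg_right ?_ hM0
          exact_mod_cast hc
      _ = M * Bad.card := mul_comm _ _
  have hsplit := Finset.sum_filter_add_sum_filter_not U (fun p : Nat.Primes => (p : ℕ) ∉ Bad)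
    (fun p => fF p + α * fN p)
  have hQle : ∑ p ∈ U.filter (fun p : Nat.Primes => (p : ℕ) ∉ Bad), fQ p ≤ ∑' p, fQ p :=
    hQ.sum_le_tsum _ fun p _ => hQ0 p
  have hsum : ∑ p ∈ U, (fF p + α * fN p) = ∑ p ∈ U, fF p + α * ∑ p ∈ U, fN p := by
    rw [Finset.sum_add_distrib, Finset.mul_sum]
  have hlow : ∑ p ∈ U.filter (fun p : Nat.Primes => (p : ℕ) ∉ Bad), (fF p + α * fN p - α * fQ p)
      ≤ ∑ p ∈ U.filter (fun p : Nat.Primes => (p : ℕ) ∉ Bad), w p :=
    Finset.sum_le_sum fun p hp => hw p (Finset.mem_filter.mp hp).2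
  have hexp : ∑ p ∈ U.filter (fun p : Nat.Primes => (p : ℕ) ∉ Bad), (fF p + α * fN p - α * fQ p)
      = ∑ p ∈ U.filter (fun p : Nat.Primes => (p : ℕ) ∉ Bad), (fF p + α * fN p)
        - α * ∑ p ∈ U.filter (fun p : Nat.Primes => (p : ℕ) ∉ Bad), fQ p := by
    rw [Finset.sum_sub_distrib, Finset.mul_sum]
  have hαQ : α * ∑ p ∈ U.filter (fun p : Nat.Primes => (p : ℕ) ∉ Bad), fQ p ≤ α * ∑' p, fQ p :=
    mul_le_mul_of_nonneg_left hQle hα
  have hα2 : α * ((∑' p, fN p) - 1) ≤ α * ∑ p ∈ U, fN p := mul_le_mul_of_nonneg_left h2 hα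
  rw [hexp] at hlow
  linarith

end Fermat.Agent.LT.T7.H341
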