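import Fermat.Agent.LT.T7.H341.ChebGrp

/-!
# Row LT, tower T7, leaf T7.13c `ChebFC` (helper341), part 3: the values of `|tr Ψ|²` on `SL₂(𝔽₃)`

OFF-MAIN.  For any lift `Ψ : GL₂(𝔽₃) →* GL₂(ℤ[√-2])` (`red ∘ Ψ = id`) and any
`ι : ℤ[√-2] →+* ℂ`: `‖tr Ψ g‖² = 4` on `{±1}`, `= 0` on `Q₈ ∖ {±1}`, `= 1` on `SL₂(𝔽₃) ∖ Q₈`.
-/

set_option autoImplicit false

open FLT.ExplicitLift
open scoped MatrixGroups

namespace Fermat.Agent.LT.T7.H341

open Fermat.Agent.LT.H130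

/-! ## Arithmetic of `ℤ[√-2]` (helper19) -/

/-- `ℤ[√-2]` has no zero divisors. -/
theorem zsqrtd_eq_zero_of_mul341 {x y : ℤ√(-2)} (h : x * y = 0) (hx : x ≠ 0) : y = 0 := by
  have hn : (x * y).norm = 0 := by rw [h]; simp [Zsqrtd.norm]
  rw [Zsqrtd.norm_mul] at hn
  rcases mul_eq_zero.mp hn with h1 | h1
  · exact absurd ((Zsqrtd.norm_eq_zero_iff (by norm_num) x).mp h1) hx
  · exact (Zsqrtd.norm_eq_zero_iff (by norm_num) y).mp h1

/-- `-1` is not a square in `ℤ[√-2]`. -/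
theorem zsqrtd_sq_ne_neg_one341 (x : ℤ√(-2)) : x * x ≠ -1 := by
  intro h
  have h1 := congrArg Zsqrtd.re h
  have h2 := congrArg Zsqrtd.im h
  simp only [Zsqrtd.re_mul, Zsqrtd.im_mul, Zsqrtd.re_neg, Zsqrtd.im_neg, Zsqrtd.re_one,
    Zsqrtd.im_one] at h1 h2
  have h3 : x.re * x.im = 0 := by linarith
  rcases mul_eq_zero.mp h3 with h0 | h0
  · rw [h0] at h1
    have : 2 * (x.im * x.im) = 1 := by linarith
    omega
  · rw [h0] at h1
    nlinarith [mul_self_nonneg x.re]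

/-! ## The lift `Ψ` -/

section Lift

variable (Ψ : GL (Fin 2) (ZMod 3) →* GL (Fin 2) (ℤ√(-2)))

/-- The matrix of `Ψ g`. -/
def liftMat341 (g : GL (Fin 2) (ZMod 3)) : Matrix (Fin 2) (Fin 2) (ℤ√(-2)) :=
  ((Ψ g : GL (Fin 2) (ℤ√(-2))) : Matrix (Fin 2) (Fin 2) (ℤ√(-2)))

theorem liftMat_one341 : liftMat341 Ψ 1 = 1 := by
  simp [liftMat341]

theorem liftMat_mul341 (g h : GL (Fin 2) (ZMod 3)) :
    liftMat341 Ψ (g * h) = liftMat341 Ψ g * liftMat341 Ψ h := by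
  simp [liftMat341]

variable {Ψ}

theorem red_liftMat341 (hΨ : ∀ g, Matrix.GeneralLinearGroup.map red (Ψ g) = g)
    (g : GL (Fin 2) (ZMod 3)) (i j : Fin 2) :
    red (liftMat341 Ψ g i j) = (g : Matrix (Fin 2) (Fin 2) (ZMod 3)) i j := by
  have h2 := congrArg
    (fun x : GL (Fin 2) (ZMod 3) => (x : Matrix (Fin 2) (Fin 2) (ZMod 3)) i j) (hΨ g)
  simpa [liftMat341] using h2

/-- `Ψ (-1) = -1`: an involution congruent to `-1` modulo a prime above `3` is `-1`. -/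
theorem liftMat_neg_one341 (hΨ : ∀ g, Matrix.GeneralLinearGroup.map red (Ψ g) = g) :
    liftMat341 Ψ (-1) = -1 := by
  set T := liftMat341 Ψ (-1) with hT
  have hTT : T * T = 1 := by
    rw [hT, ← liftMat_mul341]
    have : (-1 : GL (Fin 2) (ZMod 3)) * (-1) = 1 := by simp
    rw [this, liftMat_one341]
  have hr : ∀ i j, red (T i j) = (-1 : Matrix (Fin 2) (Fin 2) (ZMod 3)) i j := by
    intro i j
    rw [hT, red_liftMat341 hΨ]
    simp
  have h00 : red (T 0 0) = -1 := by simpa using hr 0 0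
  have h01 : red (T 0 1) = 0 := by simpa using hr 0 1
  have h10 : red (T 1 0) = 0 := by simpa using hr 1 0
  have h11 : red (T 1 1) = -1 := by simpa using hr 1 1
  set U : Matrix (Fin 2) (Fin 2) (ℤ√(-2)) := T - 1 with hU
  have hdet : U.det ≠ 0 := by
    intro h0
    have h1 : red U.det = 0 := by rw [h0, map_zero]
    rw [Matrix.det_fin_two] at h1
    simp only [hU, Matrix.sub_apply, Matrix.one_apply_eq, map_sub, map_mul, map_one,
      h00, h01, h10, h11] at h1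
    revert h1
    decide
  have hUV : U * (T + 1) = 0 := by
    rw [hU, Matrix.sub_mul, Matrix.mul_add, Matrix.mul_add, hTT]
    simp only [Matrix.mul_one, Matrix.one_mul]
    abel
  have hz : U.det • (T + 1) = 0 := by
    have h1 : U.adjugate * (U * (T + 1)) = 0 := by rw [hUV, Matrix.mul_zero]
    rw [← Matrix.mul_assoc, Matrix.adjugate_mul, Matrix.smul_mul, Matrix.one_mul] at h1
    exact h1
  have hent : ∀ i j, (T + 1) i j = 0 := by
    intro i j
    have h1 := congrFun (congrFun hz i) j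
    simp only [Matrix.smul_apply, smul_eq_mul, Matrix.zero_apply] at h1
    exact zsqrtd_eq_zero_of_mul341 h1 hdet
  have : T + 1 = 0 := Matrix.ext hent
  exact eq_neg_of_add_eq_zero_left this

/-- If `h * h = -1` in `GL₂(𝔽₃)` then `Ψ h` has trace `0`. -/
theorem trace_liftMat_eq_zero341 (hΨ : ∀ g, Matrix.GeneralLinearGroup.map red (Ψ g) = g)
    (h : GL (Fin 2) (ZMod 3)) (hh : h * h = -1) : (liftMat341 Ψ h).trace = 0 := by
  set T := liftMat341 Ψ h with hT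
  have hTT : T * T = -1 := by
    rw [hT, ← liftMat_mul341, hh, liftMat_neg_one341 hΨ]
  have e00 : T 0 0 * T 0 0 + T 0 1 * T 1 0 = -1 := by
    have := congrFun (congrFun hTT 0) 0
    simpa [Matrix.mul_apply, Fin.sum_univ_two] using this
  have e01 : T 0 0 * T 0 1 + T 0 1 * T 1 1 = 0 := by
    have := congrFun (congrFun hTT 0) 1
    simpa [Matrix.mul_apply, Fin.sum_univ_two] using this
  rw [Matrix.trace_fin_two]
  by_contra ht
  have h1 : (T 0 0 + T 1 1) * T 0 1 = 0 := by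
    rw [← e01]; ring
  have h2 : T 0 1 = 0 := zsqrtd_eq_zero_of_mul341 h1 ht
  rw [h2, zero_mul, add_zero] at e00
  exact zsqrtd_sq_ne_neg_one341 _ e00

theorem mul_entryZ341 (A B : Matrix (Fin 2) (Fin 2) (ℤ√(-2))) (i j : Fin 2) :
    (A * B) i j = A i 0 * B 0 j + A i 1 * B 1 j := by
  simp [Matrix.mul_apply, Fin.sum_univ_two]

/-- If `A³ = ε` (`ε = ±1`) and `A` is not scalar, then `(tr A)³ = -ε`. -/
theorem trace_cube341 (A : Matrix (Fin 2) (Fin 2) (ℤ√(-2))) (ε : ℤ√(-2))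
    (hA : A * A * A = ε • (1 : Matrix (Fin 2) (Fin 2) (ℤ√(-2))))
    (hns : ¬ (A 0 1 = 0 ∧ A 1 0 = 0 ∧ A 0 0 = A 1 1)) :
    A.trace ^ 3 = -ε := by
  have h00 : (A 0 0 * A 0 0 + A 0 1 * A 1 0) * A 0 0 + (A 0 0 * A 0 1 + A 0 1 * A 1 1) * A 1 0
      = ε := by
    have := congrFun (congrFun hA 0) 0
    simpa [mul_entryZ341] using this
  have h01 : (A 0 0 * A 0 0 + A 0 1 * A 1 0) * A 0 1 + (A 0 0 * A 0 1 + A 0 1 * A 1 1) * A 1 1
      = 0 := by
    have := congrFun (congrFun hA 0) 1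
    simpa [mul_entryZ341] using this
  have h10 : (A 1 0 * A 0 0 + A 1 1 * A 1 0) * A 0 0 + (A 1 0 * A 0 1 + A 1 1 * A 1 1) * A 1 0
      = 0 := by
    have := congrFun (congrFun hA 1) 0
    simpa [mul_entryZ341] using this
  have h11 : (A 1 0 * A 0 0 + A 1 1 * A 1 0) * A 0 1 + (A 1 0 * A 0 1 + A 1 1 * A 1 1) * A 1 1
      = ε := by
    have := congrFun (congrFun hA 1) 1
    simpa [mul_entryZ341] using this
  set X : ℤ√(-2) := (A 0 0 + A 1 1) ^ 2 - (A 0 0 * A 1 1 - A 0 1 * A 1 0) with hX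
  have hz : X = 0 := by
    by_contra hX0
    apply hns
    refine ⟨?_, ?_, ?_⟩
    · refine zsqrtd_eq_zero_of_mul341 (x := X) ?_ hX0
      rw [hX]
      linear_combination h01
    · refine zsqrtd_eq_zero_of_mul341 (x := X) ?_ hX0
      rw [hX]
      linear_combination h10
    · have : A 0 0 - A 1 1 = 0 := by
        refine zsqrtd_eq_zero_of_mul341 (x := X) ?_ hX0
        rw [hX]
        linear_combination h00 - h11
      exact sub_eq_zero.mp this
  rw [Matrix.trace_fin_two]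
  rw [hX] at hz
  linear_combination (2 * A 0 0 + A 1 1) * hz - h00

end Lift

/-! ## From entries to `GL₂(𝔽₃)` -/

theorem eq_of_entries341 (g h : GL (Fin 2) (ZMod 3))
    (h00 : (g : Matrix (Fin 2) (Fin 2) (ZMod 3)) 0 0 = (h : Matrix (Fin 2) (Fin 2) (ZMod 3)) 0 0)
    (h01 : (g : Matrix (Fin 2) (Fin 2) (ZMod 3)) 0 1 = (h : Matrix (Fin 2) (Fin 2) (ZMod 3)) 0 1)
    (h10 : (g : Matrix (Fin 2) (Fin 2) (ZMod 3)) 1 0 = (h : Matrix (Fin 2) (Fin 2) (ZMod 3)) 1 0)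
    (h11 : (g : Matrix (Fin 2) (Fin 2) (ZMod 3)) 1 1 = (h : Matrix (Fin 2) (Fin 2) (ZMod 3)) 1 1) :
    g = h := by
  apply entries_injective341
  simp only [entries341, h00, h01, h10, h11]

theorem neg_one_entry341 (i j : Fin 2) :
    ((-1 : GL (Fin 2) (ZMod 3)) : Matrix (Fin 2) (Fin 2) (ZMod 3)) i j =
      -((1 : Matrix (Fin 2) (Fin 2) (ZMod 3)) i j) := by
  rw [Units.val_neg, Units.val_one, Matrix.neg_apply]

theorem eq_one_or_neg_one_of_mem_Nsub341 {g : GL (Fin 2) (ZMod 3)} (hg : g ∈ Nsub341) :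
    g = 1 ∨ g = -1 := by
  rcases ent_sc341 _ _ _ _ hg.1 hg.2 with ⟨h1, h2, h3, h4⟩ | ⟨h1, h2, h3, h4⟩
  · left
    refine eq_of_entries341 g 1 ?_ ?_ ?_ ?_
    · rw [h1]; simp
    · rw [h2]; simp
    · rw [h3]; simp
    · rw [h4]; simp
  · right
    refine eq_of_entries341 g (-1) ?_ ?_ ?_ ?_
    · rw [h1, neg_one_entry341]; simp
    · rw [h2, neg_one_entry341]; simp
    · rw [h3, neg_one_entry341]; simp
    · rw [h4, neg_one_entry341]; simp

theorem sq_eq_neg_one341 {g : GL (Fin 2) (ZMod 3)} (hg : g ∈ Qsub341) (hn : g ∉ Nsub341) :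
    g * g = -1 := by
  obtain ⟨hd, ht⟩ := hg
  have ht' : (g : Matrix (Fin 2) (Fin 2) (ZMod 3)) 0 0 +
      (g : Matrix (Fin 2) (Fin 2) (ZMod 3)) 1 1 = 0 := by
    rcases ht with ht | ht
    · exact ht
    · exact absurd ⟨hd, ht⟩ hn
  obtain ⟨h1, h2, h3, h4⟩ := ent_sq341 _ _ _ _ hd ht'
  refine eq_of_entries341 (g * g) (-1) ?_ ?_ ?_ ?_
  · rw [Units.val_mul, mul_entry341, h1, neg_one_entry341]; simp
  · rw [Units.val_mul, mul_entry341, h2, neg_one_entry341]; simp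
  · rw [Units.val_mul, mul_entry341, h3, neg_one_entry341]; simp
  · rw [Units.val_mul, mul_entry341, h4, neg_one_entry341]; simp

theorem cube_eq341 {g : GL (Fin 2) (ZMod 3)}
    (hd : Matrix.GeneralLinearGroup.det g = 1) (hn : g ∉ Qsub341) :
    g * g * g = 1 ∨ g * g * g = -1 := by
  have hd' := (det_eq_one_iff341 g).mp hd
  have ht : (g : Matrix (Fin 2) (Fin 2) (ZMod 3)) 0 0 +
      (g : Matrix (Fin 2) (Fin 2) (ZMod 3)) 1 1 ≠ 0 := fun h => hn ⟨hd', Or.inl h⟩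
  rcases ent_cube341 _ _ _ _ hd' ht with ⟨h1, h2, h3, h4⟩ | ⟨h1, h2, h3, h4⟩
  · left
    refine eq_of_entries341 (g * g * g) 1 ?_ ?_ ?_ ?_
    · rw [Units.val_mul, Units.val_mul, mul_entry341, mul_entry341, mul_entry341, h1]; simp
    · rw [Units.val_mul, Units.val_mul, mul_entry341, mul_entry341, mul_entry341, h2]; simp
    · rw [Units.val_mul, Units.val_mul, mul_entry341, mul_entry341, mul_entry341, h3]; simp
    · rw [Units.val_mul, Units.val_mul, mul_entry341, mul_entry341, mul_entry341, h4]; simp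
  · right
    refine eq_of_entries341 (g * g * g) (-1) ?_ ?_ ?_ ?_
    · rw [Units.val_mul, Units.val_mul, mul_entry341, mul_entry341, mul_entry341, h1,
        neg_one_entry341]; simp
    · rw [Units.val_mul, Units.val_mul, mul_entry341, mul_entry341, mul_entry341, h2,
        neg_one_entry341]; simp
    · rw [Units.val_mul, Units.val_mul, mul_entry341, mul_entry341, mul_entry341, h3,
        neg_one_entry341]; simp
    · rw [Units.val_mul, Units.val_mul, mul_entry341, mul_entry341, mul_entry341, h4,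
        neg_one_entry341]; simp

/-! ## The values of `‖tr Ψ g‖²` -/

section Values

variable {Ψ : GL (Fin 2) (ZMod 3) →* GL (Fin 2) (ℤ√(-2))} (ι : ℤ√(-2) →+* ℂ)

theorem trΨ_eq341 (g : GL (Fin 2) (ZMod 3)) : trΨ Ψ ι g = ι (liftMat341 Ψ g).trace := rfl

/-- On `{±1}`: `‖tr Ψ g‖² = 4`. -/
theorem normSq_trΨ_N341 (hΨ : ∀ g, Matrix.GeneralLinearGroup.map red (Ψ g) = g)
    {g : GL (Fin 2) (ZMod 3)} (hg : g ∈ Nsub341) : ‖trΨ Ψ ι g‖ ^ 2 = 4 := by
  rw [trΨ_eq341]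
  rcases eq_one_or_neg_one_of_mem_Nsub341 hg with rfl | rfl
  · rw [liftMat_one341, Matrix.trace_one, Fintype.card_fin, map_natCast]
    norm_num
  · rw [liftMat_neg_one341 hΨ, Matrix.trace_neg, Matrix.trace_one, Fintype.card_fin, map_neg,
      map_natCast, norm_neg]
    norm_num

/-- On `Q₈ ∖ {±1}`: `‖tr Ψ g‖² = 0`. -/
theorem normSq_trΨ_Q341 (hΨ : ∀ g, Matrix.GeneralLinearGroup.map red (Ψ g) = g)
    {g : GL (Fin 2) (ZMod 3)} (hg : g ∈ Qsub341) (hn : g ∉ Nsub341) : ‖trΨ Ψ ι g‖ ^ 2 = 0 := by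
  rw [trΨ_eq341, trace_liftMat_eq_zero341 hΨ g (sq_eq_neg_one341 hg hn), map_zero, norm_zero]
  norm_num

/-- On `SL₂(𝔽₃) ∖ Q₈`: `‖tr Ψ g‖² = 1`. -/
theorem normSq_trΨ_SL341 (hΨ : ∀ g, Matrix.GeneralLinearGroup.map red (Ψ g) = g)
    {g : GL (Fin 2) (ZMod 3)} (hd : Matrix.GeneralLinearGroup.det g = 1) (hn : g ∉ Qsub341) :
    ‖trΨ Ψ ι g‖ ^ 2 = 1 := by
  rw [trΨ_eq341]
  have hd' := (det_eq_one_iff341 g).mp hd
  have hns : ¬ ((liftMat341 Ψ g) 0 1 = 0 ∧ (liftMat341 Ψ g) 1 0 = 0 ∧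
      (liftMat341 Ψ g) 0 0 = (liftMat341 Ψ g) 1 1) := by
    rintro ⟨h1, h2, h3⟩
    apply hn
    refine ⟨hd', Or.inr ⟨?_, ?_, ?_⟩⟩
    · rw [← red_liftMat341 hΨ, h1, map_zero]
    · rw [← red_liftMat341 hΨ, h2, map_zero]
    · rw [← red_liftMat341 hΨ, ← red_liftMat341 hΨ, h3]
  have hcube : ∃ ε : ℤ√(-2), (ε = 1 ∨ ε = -1) ∧ (liftMat341 Ψ g).trace ^ 3 = -ε := by
    rcases cube_eq341 hd hn with h | h
    · refine ⟨1, Or.inl rfl, trace_cube341 _ 1 ?_ hns⟩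
      rw [← liftMat_mul341, ← liftMat_mul341, h, liftMat_one341, one_smul]
    · refine ⟨-1, Or.inr rfl, trace_cube341 _ (-1) ?_ hns⟩
      rw [← liftMat_mul341, ← liftMat_mul341, h, liftMat_neg_one341 hΨ, neg_smul, one_smul]
  obtain ⟨ε, hε, hT⟩ := hcube
  have h3 : ‖ι (liftMat341 Ψ g).trace‖ ^ 3 = 1 := by
    rw [← norm_pow, ← map_pow, hT]
    rcases hε with rfl | rfl
    · rw [map_neg, map_one, norm_neg, norm_one]
    · rw [neg_neg, map_one, norm_one]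
  have h1 : ‖ι (liftMat341 Ψ g).trace‖ = 1 :=
    (pow_eq_one_iff_of_nonneg (norm_nonneg _) (by norm_num)).mp h3
  rw [h1]
  norm_num

end Values

end Fermat.Agent.LT.T7.H341
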