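import Fermat.Agent.LT.T7.H37.ThinSpec
import Fermat.Agent.LT.T7.H341.ChebAux
import Fermat.Agent.LT.T7.H341.ChebTr
import Fermat.Agent.Lib.Cheb.H761.PrimeSum

/-!
# Row LT, tower T7, leaf T7.13c `ChebFC` (helper341): THE LEAF

OFF-MAIN.  `chebFC341 : H37.ChebFC` VERBATIM against `LT/T7/H37/ThinSpec.lean`
(helper37@8584ef06e, sha256 4c697dce).

Route (normal subgroups only, no count in a non-Galois field): with `F = ℚ̄^{ρ⁻¹ SL₂}`,
`E = ℚ̄^{ρ⁻¹ Q₈}`, `L₁ = ℚ̄^{ρ⁻¹ {±1}}` (finite Galois over `ℚ`, degrees `n_F`, `n_E`, `n₁`,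
`n₁ ≤ 4 n_E`) and `c_K(p)` = number of primes of `K` of norm `p` (`= [K:ℚ]` if a Frobenius at
`p` fixes `K`, `= 0` otherwise, for good `p`): for `g = ρ(Frob_p) ∈ SL₂(𝔽₃)`,
`|tr Ψ g|² = 4, 0, 1` on `{±1}`, `Q₈ ∖ {±1}`, `SL₂ ∖ Q₈`, hence with `α = n_F / n_E`

  `c_F(p) |tr Ψ g|² ≥ c_F(p) + α c_{L₁}(p) - α c_E(p)`,

and `∑_p c_K(p) p^{-s} = log (1/(s-1)) + O(1)` for every number field `K`
(`Lib.Cheb.H761.primeSum_statement`, on main).
-/

set_option autoImplicit false
set_option linter.unusedSectionVars false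
set_option linter.unusedVariables false
set_option linter.style.haveILetI false

open FLT.ExplicitLift
open IsDedekindDomain NumberField
open scoped MatrixGroups

namespace Fermat.Agent.LT.T7.H341

open Fermat.Agent.LT.H130 Fermat.Agent.LT.T7
open Fermat.Agent.Lib.Cheb Fermat.Agent.Lib.Cheb.Spec

theorem isOpen_comap341 (ρ : GQ →* GL (Fin 2) (ZMod 3)) (hρ : Continuous ρ)
    (N : Subgroup (GL (Fin 2) (ZMod 3))) :
    IsOpen ((N.comap ρ : Subgroup GQ) : Set GQ) :=
  (isOpen_discrete (N : Set (GL (Fin 2) (ZMod 3)))).preimage hρ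

theorem mem_subSL341 (ρ : GQ →* GL (Fin 2) (ZMod 3)) (σ : GQ) :
    σ ∈ subSL ρ ↔ Matrix.GeneralLinearGroup.det (ρ σ) = 1 := Iff.rfl

theorem isOpen_subSL341 (ρ : GQ →* GL (Fin 2) (ZMod 3)) (hρ : Continuous ρ) :
    IsOpen ((subSL ρ : Subgroup GQ) : Set GQ) := by
  have h : ((subSL ρ : Subgroup GQ) : Set GQ) =
      ρ ⁻¹' {g | Matrix.GeneralLinearGroup.det g = 1} := by
    ext σ
    exact mem_subSL341 ρ σ
  rw [h]
  exact (isOpen_discrete _).preimage hρ

theorem normal_subSL341 (ρ : GQ →* GL (Fin 2) (ZMod 3)) : (subSL ρ).Normal := by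
  unfold subSL
  infer_instance

theorem rpow_neg_le_one341 (p : Nat.Primes) {s : ℝ} (hs : 1 < s) :
    ((p : ℕ) : ℝ) ^ (-s) ≤ 1 := by
  have h1 : (1 : ℝ) ≤ ((p : ℕ) : ℝ) := by exact_mod_cast p.2.one_lt.le
  exact Real.rpow_le_one_of_one_le_of_nonpos h1 (by linarith)

theorem rpow_neg_nonneg341 (p : Nat.Primes) (s : ℝ) : 0 ≤ ((p : ℕ) : ℝ) ^ (-s) :=
  Real.rpow_nonneg (Nat.cast_nonneg _) _

theorem not_dvd_of_not_mem_primeFactors341 {n p : ℕ} (hn : n ≠ 0) (hp : p.Prime)
    (h : p ∉ n.primeFactors) : ¬ p ∣ n := fun hd =>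
  h (Nat.mem_primeFactors.mpr ⟨hp, hd, hn⟩)

/-- **LEAF T7.13c.** -/
theorem chebFC341 : H37.ChebFC := by
  classical
  intro ρ Ψ ι hyp
  unfold fieldF
  intro nf S Sp
  -- the three open normal subgroups and their fixed fields
  have hoF := isOpen_subSL341 ρ hyp.cont
  have hoQ := isOpen_comap341 ρ hyp.cont Qsub341
  have hoN := isOpen_comap341 ρ hyp.cont Nsub341
  haveI hnF : (subSL ρ).Normal := normal_subSL341 ρ
  haveI hnQ : (Qsub341.comap ρ).Normal := inferInstance
  haveI hnN : (Nsub341.comap ρ).Normal := inferInstance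
  obtain ⟨fdF, galF, fixF, rkF⟩ := galois_of_open_normal341 (subSL ρ) hoF
  obtain ⟨fdQ, galQ, fixQ, rkQ⟩ := galois_of_open_normal341 (Qsub341.comap ρ) hoQ
  obtain ⟨fdN, galN, fixN, rkN⟩ := galois_of_open_normal341 (Nsub341.comap ρ) hoN
  haveI := fdQ
  haveI := fdN
  haveI nfQ : NumberField (IntermediateField.fixedField (Qsub341.comap ρ)) := ⟨⟩
  haveI nfN : NumberField (IntermediateField.fixedField (Nsub341.comap ρ)) := ⟨⟩
  haveI := galF
  haveI := galQ
  haveI := galN
  -- the constants of the prime sums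
  obtain ⟨CF, hCF⟩ := H761.primeSum_statement (IntermediateField.fixedField (subSL ρ))
  obtain ⟨CQ, hCQ⟩ := H761.primeSum_statement (IntermediateField.fixedField (Qsub341.comap ρ))
  obtain ⟨CN, hCN⟩ := H761.primeSum_statement (IntermediateField.fixedField (Nsub341.comap ρ))
  -- the degrees
  have hiQ : (Qsub341.comap ρ).index = Qsub341.index :=
    Subgroup.index_comap_of_surjective _ hyp.surj
  have hiN : (Nsub341.comap ρ).index = Nsub341.index :=
    Subgroup.index_comap_of_surjective _ hyp.surj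
  have hNQ : (Nsub341.comap ρ).index ≤ 4 * (Qsub341.comap ρ).index := by
    rw [hiQ, hiN]
    exact index_Nsub_le341
  have hQpos : 0 < (Qsub341.comap ρ).index := by
    rw [← rkQ]
    exact Module.finrank_pos
  have hNpos : 0 < (Nsub341.comap ρ).index := by
    rw [← rkN]
    exact Module.finrank_pos
  -- abbreviations
  set nF : ℕ := (subSL ρ).index with hnFdef
  set nQ : ℕ := (Qsub341.comap ρ).index with hnQdef
  set nN : ℕ := (Nsub341.comap ρ).index with hnNdef
  set α : ℝ := (nF : ℝ) / (nQ : ℝ) with hα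
  have hQposR : (0 : ℝ) < (nQ : ℝ) := by exact_mod_cast hQpos
  have hα0 : 0 ≤ α := div_nonneg (Nat.cast_nonneg _) (Nat.cast_nonneg _)
  have hαQ : α * (nQ : ℝ) = nF := by
    rw [hα]
    field_simp
  have hαN : α * (nN : ℝ) ≤ 4 * nF := by
    have h : (nN : ℝ) ≤ 4 * nQ := by exact_mod_cast hNQ
    calc α * nN ≤ α * (4 * nQ) := mul_le_mul_of_nonneg_left h hα0
      _ = 4 * (α * nQ) := by ring
      _ = 4 * nF := by rw [hαQ]
  -- the bad primes
  set Bad : Finset ℕ :=
    (H943.badNat (IntermediateField.fixedField (subSL ρ))).primeFactors ∪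
      (H943.badNat (IntermediateField.fixedField (Qsub341.comap ρ))).primeFactors ∪
      (H943.badNat (IntermediateField.fixedField (Nsub341.comap ρ))).primeFactors ∪ S ∪
      Sp.image (fun v => Ideal.absNorm v.asIdeal) with hBad
  have hBF : ∀ p : ℕ, p.Prime → p ∉ Bad →
      ¬ p ∣ H943.badNat (IntermediateField.fixedField (subSL ρ)) := by
    intro p hp hpB
    refine not_dvd_of_not_mem_primeFactors341 (H943.badNat_ne_zero _) hp (fun h => hpB ?_)
    simp only [hBad, Finset.mem_union]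
    tauto
  have hBQ : ∀ p : ℕ, p.Prime → p ∉ Bad →
      ¬ p ∣ H943.badNat (IntermediateField.fixedField (Qsub341.comap ρ)) := by
    intro p hp hpB
    refine not_dvd_of_not_mem_primeFactors341 (H943.badNat_ne_zero _) hp (fun h => hpB ?_)
    simp only [hBad, Finset.mem_union]
    tauto
  have hBN : ∀ p : ℕ, p.Prime → p ∉ Bad →
      ¬ p ∣ H943.badNat (IntermediateField.fixedField (Nsub341.comap ρ)) := by
    intro p hp hpB
    refine not_dvd_of_not_mem_primeFactors341 (H943.badNat_ne_zero _) hp (fun h => hpB ?_)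
    simp only [hBad, Finset.mem_union]
    tauto
  have hBS : ∀ p : ℕ, p ∉ Bad → p ∉ S := by
    intro p hpB h
    apply hpB
    simp only [hBad, Finset.mem_union]
    tauto
  have hBSp : ∀ p : ℕ, p ∉ Bad → ∀ v ∈ Sp, Ideal.absNorm v.asIdeal ≠ p := by
    intro p hpB v hv h
    apply hpB
    simp only [hBad, Finset.mem_union]
    right
    exact Finset.mem_image.mpr ⟨v, hv, h⟩
  -- the prime counts at a good prime
  have hcase : ∀ p : ℕ, p.Prime → p ∉ Bad → ∀ V : ValuationSubring Qb, V.LiesOverPrime p →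
      ∀ σ : GQ, V.IsFrobeniusAt σ p →
        (primeCount (IntermediateField.fixedField (subSL ρ)) p =
            if Matrix.GeneralLinearGroup.det (ρ σ) = 1 then nF else 0) ∧
          (primeCount (IntermediateField.fixedField (Qsub341.comap ρ)) p =
            if ρ σ ∈ Qsub341 then nQ else 0) ∧
          (primeCount (IntermediateField.fixedField (Nsub341.comap ρ)) p =
            if ρ σ ∈ Nsub341 then nN else 0) := by
    intro p hp hpB V hV σ hσ
    refine ⟨?_, ?_, ?_⟩
    · by_cases h : Matrix.GeneralLinearGroup.det (ρ σ) = 1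
      · rw [if_pos h]
        exact pc_of_mem341 (subSL ρ) hoF hp (hBF p hp hpB) V hV σ hσ ((mem_subSL341 ρ σ).mpr h)
      · rw [if_neg h]
        exact pc_of_not_mem341 (subSL ρ) hoF hp (hBF p hp hpB) V hV σ hσ
          (fun hm => h ((mem_subSL341 ρ σ).mp hm))
    · by_cases h : ρ σ ∈ Qsub341
      · rw [if_pos h]
        exact pc_of_mem341 (Qsub341.comap ρ) hoQ hp (hBQ p hp hpB) V hV σ hσ
          (Subgroup.mem_comap.mpr h)
      · rw [if_neg h]
        exact pc_of_not_mem341 (Qsub341.comap ρ) hoQ hp (hBQ p hp hpB) V hV σ hσ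
          (fun hm => h (Subgroup.mem_comap.mp hm))
    · by_cases h : ρ σ ∈ Nsub341
      · rw [if_pos h]
        exact pc_of_mem341 (Nsub341.comap ρ) hoN hp (hBN p hp hpB) V hV σ hσ
          (Subgroup.mem_comap.mpr h)
      · rw [if_neg h]
        exact pc_of_not_mem341 (Nsub341.comap ρ) hoN hp (hBN p hp hpB) V hV σ hσ
          (fun hm => h (Subgroup.mem_comap.mp hm))
  -- the class function
  set cls : ℕ → ℝ := fun n =>
    if primeCount (IntermediateField.fixedField (Nsub341.comap ρ)) n ≠ 0 then 4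
    else if primeCount (IntermediateField.fixedField (Qsub341.comap ρ)) n ≠ 0 then 0 else 1
    with hcls
  have hclsN : ∀ n : ℕ, primeCount (IntermediateField.fixedField (Nsub341.comap ρ)) n ≠ 0 →
      cls n = 4 := fun n h => by
    simp only [hcls]
    rw [if_pos h]
  have hclsQ : ∀ n : ℕ, primeCount (IntermediateField.fixedField (Nsub341.comap ρ)) n = 0 →
      primeCount (IntermediateField.fixedField (Qsub341.comap ρ)) n ≠ 0 → cls n = 0 :=
    fun n h h' => by
      simp only [hcls]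
      rw [if_neg (not_not.mpr h), if_pos h']
  have hclsS : ∀ n : ℕ, primeCount (IntermediateField.fixedField (Nsub341.comap ρ)) n = 0 →
      primeCount (IntermediateField.fixedField (Qsub341.comap ρ)) n = 0 → cls n = 1 :=
    fun n h h' => by
      simp only [hcls]
      rw [if_neg (not_not.mpr h), if_neg (not_not.mpr h')]
  -- the class function is the true value
  have hval : ∀ p : ℕ, p.Prime → p ∉ Bad → ∀ V : ValuationSubring Qb, V.LiesOverPrime p →
      ∀ σ : GQ, V.IsFrobeniusAt σ p → Matrix.GeneralLinearGroup.det (ρ σ) = 1 →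
        cls p = ‖trΨ Ψ ι (ρ σ ^ ordSL (ρ σ))‖ ^ 2 := by
    intro p hp hpB V hV σ hσ hdet
    obtain ⟨-, hQ, hN⟩ := hcase p hp hpB V hV σ hσ
    have hord : ordSL (ρ σ) = 1 := by
      unfold ordSL
      rw [if_pos hdet]
    rw [hord, pow_one]
    by_cases h1 : ρ σ ∈ Nsub341
    · rw [if_pos h1] at hN
      rw [hclsN p (by rw [hN]; exact hNpos.ne'), normSq_trΨ_N341 ι hyp.lift h1]
    · rw [if_neg h1] at hN
      by_cases h2 : ρ σ ∈ Qsub341
      · rw [if_pos h2] at hQ
        rw [hclsQ p hN (by rw [hQ]; exact hQpos.ne'), normSq_trΨ_Q341 ι hyp.lift h2 h1]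
      · rw [if_neg h2] at hQ
        rw [hclsS p hN hQ, normSq_trΨ_SL341 ι hyp.lift hdet h2]
  -- the pointwise inequality
  have hpt : ∀ p : Nat.Primes, (p : ℕ) ∉ Bad →
      (primeCount (IntermediateField.fixedField (subSL ρ)) p : ℝ) +
          α * (primeCount (IntermediateField.fixedField (Nsub341.comap ρ)) p : ℝ) -
          α * (primeCount (IntermediateField.fixedField (Qsub341.comap ρ)) p : ℝ)
        ≤ (primeCount (IntermediateField.fixedField (subSL ρ)) p : ℝ) * cls p := by
    intro p hpB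
    obtain ⟨V, σ, hV, hσ⟩ := Fermat.Agent.S54.exists_frobenius p p.2
    obtain ⟨hF, hQ, hN⟩ := hcase p p.2 hpB V hV σ hσ
    by_cases hdet : Matrix.GeneralLinearGroup.det (ρ σ) = 1
    · rw [if_pos hdet] at hF
      by_cases h1 : ρ σ ∈ Nsub341
      · have h2 : ρ σ ∈ Qsub341 := Nsub_le_Qsub341 h1
        rw [if_pos h1] at hN
        rw [if_pos h2] at hQ
        rw [hclsN p (by rw [hN]; exact hNpos.ne'), hF, hN, hQ]
        linarith
      · rw [if_neg h1] at hN
        by_cases h2 : ρ σ ∈ Qsub341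
        · rw [if_pos h2] at hQ
          rw [hclsQ p hN (by rw [hQ]; exact hQpos.ne'), hF, hN, hQ]
          simp only [Nat.cast_zero, mul_zero, add_zero]
          linarith
        · rw [if_neg h2] at hQ
          rw [hclsS p hN hQ, hF, hN, hQ]
          simp
    · rw [if_neg hdet] at hF
      have h2 : ρ σ ∉ Qsub341 := fun h => hdet (det_of_mem_Qsub341 h)
      have h1 : ρ σ ∉ Nsub341 := fun h => h2 (Nsub_le_Qsub341 h)
      rw [if_neg h1] at hN
      rw [if_neg h2] at hQ
      rw [hF, hN, hQ]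
      simp
  refine ⟨CF + α * (CN + CQ) + (1 + α + ((nF : ℝ) + α * nN) * Bad.card), fun s hs1 hs2 => ?_⟩
  -- the lower bound
  obtain ⟨U, hUgood, hUsum⟩ := sum_lower341
    (fun p : Nat.Primes =>
      (primeCount (IntermediateField.fixedField (subSL ρ)) p : ℝ) * ((p : ℕ) : ℝ) ^ (-s))
    (fun p : Nat.Primes =>
      (primeCount (IntermediateField.fixedField (Qsub341.comap ρ)) p : ℝ) * ((p : ℕ) : ℝ) ^ (-s))
    (fun p : Nat.Primes =>
      (primeCount (IntermediateField.fixedField (Nsub341.comap ρ)) p : ℝ) * ((p : ℕ) : ℝ) ^ (-s))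
    (fun p : Nat.Primes =>
      (primeCount (IntermediateField.fixedField (subSL ρ)) p : ℝ) * cls p * ((p : ℕ) : ℝ) ^ (-s))
    α ((nF : ℝ) + α * nN) hα0 Bad
    (H761.summable_primeCount_mul _ hs1) (H761.summable_primeCount_mul _ hs1)
    (H761.summable_primeCount_mul _ hs1)
    (fun p => mul_nonneg (Nat.cast_nonneg _) (rpow_neg_nonneg341 p s))
    (fun p => by
      have hx0 := rpow_neg_nonneg341 p s
      have hx1 := rpow_neg_le_one341 p hs1
      have h1 : (primeCount (IntermediateField.fixedField (subSL ρ)) p : ℝ) ≤ nF := by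
        exact_mod_cast pc_le_index341 (subSL ρ) hoF p
      have h2 : (primeCount (IntermediateField.fixedField (Nsub341.comap ρ)) p : ℝ) ≤ nN := by
        exact_mod_cast pc_le_index341 (Nsub341.comap ρ) hoN p
      have h3 : (primeCount (IntermediateField.fixedField (subSL ρ)) p : ℝ) *
          ((p : ℕ) : ℝ) ^ (-s) ≤ nF :=
        (mul_le_mul h1 hx1 hx0 (Nat.cast_nonneg _)).trans (by rw [mul_one])
      have h4 : (primeCount (IntermediateField.fixedField (Nsub341.comap ρ)) p : ℝ) *
          ((p : ℕ) : ℝ) ^ (-s) ≤ nN :=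
        (mul_le_mul h2 hx1 hx0 (Nat.cast_nonneg _)).trans (by rw [mul_one])
      have h5 := mul_le_mul_of_nonneg_left h4 hα0
      linarith)
    (add_nonneg (Nat.cast_nonneg _) (mul_nonneg hα0 (Nat.cast_nonneg _)))
    (fun p hpB => by
      have hx0 := rpow_neg_nonneg341 p s
      have h := mul_le_mul_of_nonneg_right (hpt p hpB) hx0
      beta_reduce
      linarith [h])
  beta_reduce at hUsum
  refine ⟨U.biUnion (fun p : Nat.Primes =>
      fib341 (IntermediateField.fixedField (subSL ρ)) (p : ℕ)),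
    fun v => cls (Ideal.absNorm v.asIdeal), ?_, ?_⟩
  · intro v hv
    obtain ⟨p, hpU, hvp⟩ := Finset.mem_biUnion.mp hv
    have hn : Ideal.absNorm v.asIdeal = (p : ℕ) := (mem_fib341 _ _ v).mp hvp
    have hpB := hUgood p hpU
    refine ⟨fun hvS => hBSp p hpB v hvS hn, (p : ℕ), p.2, hBS p hpB, ?_,
      Fermat.Agent.S54.exists_frobenius p p.2, ?_⟩
    · have h := Ideal.absNorm_mem v.asIdeal
      rwa [hn] at h
    · intro V hV σ hσ
      show cls (Ideal.absNorm v.asIdeal) = _
      rw [hn]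
      have hdet : Matrix.GeneralLinearGroup.det (ρ σ) = 1 := by
        by_contra h
        have h0 := (hcase p p.2 hpB V hV σ hσ).1
        rw [if_neg h] at h0
        have hc := card_fib341 (IntermediateField.fixedField (subSL ρ)) p.2
        rw [h0] at hc
        rw [Finset.card_eq_zero.mp hc] at hvp
        exact absurd hvp (Finset.notMem_empty v)
      exact hval p p.2 hpB V hV σ hσ hdet
  · have hdisj : (U : Set Nat.Primes).PairwiseDisjoint (fun p : Nat.Primes =>
        fib341 (IntermediateField.fixedField (subSL ρ)) (p : ℕ)) := by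
      intro p _ q _ hpq
      rw [Function.onFun, Finset.disjoint_left]
      intro v hvp hvq
      apply hpq
      apply Subtype.ext
      rw [← (mem_fib341 _ _ v).mp hvp, ← (mem_fib341 _ _ v).mp hvq]
    rw [Finset.sum_biUnion hdisj]
    have hinner : ∀ p ∈ U,
        ∑ v ∈ fib341 (IntermediateField.fixedField (subSL ρ)) (p : ℕ),
            cls (Ideal.absNorm v.asIdeal) * H37.nrm v ^ (-s)
          = (primeCount (IntermediateField.fixedField (subSL ρ)) p : ℝ) * cls p *
              ((p : ℕ) : ℝ) ^ (-s) := by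
      intro p _
      have h1 : ∀ v ∈ fib341 (IntermediateField.fixedField (subSL ρ)) (p : ℕ),
          cls (Ideal.absNorm v.asIdeal) * H37.nrm v ^ (-s) = cls p * ((p : ℕ) : ℝ) ^ (-s) := by
        intro v hv
        have hn := (mem_fib341 _ _ v).mp hv
        unfold H37.nrm
        rw [hn]
      rw [Finset.sum_congr rfl h1, Finset.sum_const, nsmul_eq_mul, card_fib341 _ p.2]
      ring
    rw [Finset.sum_congr rfl hinner]
    have hF1 := abs_le.mp (hCF s hs1 hs2)
    have hQ1 := abs_le.mp (hCQ s hs1 hs2)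
    have hN1 := abs_le.mp (hCN s hs1 hs2)
    have hαN1 : α * (Real.log (1 / (s - 1)) - CN) ≤ α * ∑' p : Nat.Primes,
        (primeCount (IntermediateField.fixedField (Nsub341.comap ρ)) p : ℝ) *
          ((p : ℕ) : ℝ) ^ (-s) :=
      mul_le_mul_of_nonneg_left (by linarith [hN1.1]) hα0
    have hαQ1 : α * (∑' p : Nat.Primes,
        (primeCount (IntermediateField.fixedField (Qsub341.comap ρ)) p : ℝ) *
          ((p : ℕ) : ℝ) ^ (-s)) ≤ α * (Real.log (1 / (s - 1)) + CQ) :=
      mul_le_mul_of_nonneg_left (by linarith [hQ1.2]) hα0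
    linarith [hF1.1, hUsum]

end Fermat.Agent.LT.T7.H341
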