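import Mathlib
import Fermat.Agent.LT.T7.H340.UpFactSpec

/-!
# Row LT, tower T7, node C2.7.13.1.0 `H340.UpDatC340` (helper341, registry 2742): THE CUT -- Spec

OFF-MAIN.  Definitions and frozen Props only (the proved top `upDatC_of341` is in
`UpDatTop.lean`).  No hole, nothing assumed.  ADDITIVE (new names only, suffix `341`, namespace
`Fermat.Agent.LT.T7.UD341`).  Vocabulary: `T7/H340/UpFactSpec.lean` (helper340, sha256
04981afb) and its imports, byte-identical copies.

    upDatC_of341 : UpInertC341 K K' → UpSplitC341 K K' → UpArchC341 K K' → H340.UpDatC340 K K'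

The local data upstairs are chosen PLACE BY PLACE; the three leaves are the three kinds of
places.  `Sin` = the places of `S` with exactly one place over them, `Ssp` = the others.

* `UpInertC341` (ONE place `w` over `v`): `H340.InertDat340` with `H340.IsInertDat340`.
  Needs the elliptic `γ = N δ` and the local data `L` downstairs (the torus measure upstairs is
  the image of `L.μt v`).  NO hypothesis on `S`, `T₀`, the levels, `D.l ≠ 2`, `TotCplx K`.
* `UpSplitC341` (NOT exactly one place over `v`): `H340.SplitDat340` with `H340.IsSplitDat340`.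
  Depends on `D`, `ι`, `v` only.
* `UpArchC341` (`v` infinite, `K` totally complex): `H340.ArchDat340` with
  `H340.IsArchDat340`.  Depends on `D`, `ι`, `v` only.
-/

set_option autoImplicit false

open AutomorphicForm IsDedekindDomain NumberField MeasureTheory
open scoped ComplexConjugate

noncomputable section

namespace Fermat.Agent.LT.T7.UD341

open Fermat.Agent.LT.H556 Fermat.Agent.LT.H556.A0 Fermat.Agent.LT.T7 Fermat.Agent.LT.T7.H305
open Fermat.Agent.LT.T7.H340

attribute [local instance] Fermat.Agent.LT.T5.instMeasurableSpaceG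

section TwoFields

variable (K K' : Type) [Field K] [NumberField K] [Field K'] [NumberField K'] [Algebra K K']

/-- The finite place `v` of `K` has EXACTLY ONE place of `K'` over it. -/
def OnePlace341 (v : HeightOneSpectrum (𝓞 K)) : Prop :=
  ∃ w : HeightOneSpectrum (𝓞 K'), PlaceOver K K' v w ∧
    ∀ w' : HeightOneSpectrum (𝓞 K'), PlaceOver K K' v w' → w' = w

/-- **LEAF UD.1 = UP-INERT.**  At a finite place `v` with exactly one place `w` over it the
local data upstairs exist.
Proof.  `(e, i, s_w)` with `rat_i`, `rat_s`, `ext`: `T6.InstExtC` (field of `T6.T6Out`) for the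
generator `D.s.σ` of the Galois group (`IsCompData.cyc`, `IsCompData.base`, `IsCycExt`).
`sig`: `SigmaLocC305 K'` for `T5.PlaceRel D.s w w` (`σ(w)` is a place over `v`, so `σ(w) = w`)
gives `s'_w` with `(σ_𝔸 a)_w = s'_w(a_w)`; `s'_w = s_w` (both are continuous and agree on the
dense subfield `K'`).  `iot`: `IsAdeleBase305.fin` gives `i'` with `(ι x)_w = i'(x_v)`; `i' = i`
(continuous, agree on `K`).  `haar`: `LocMeasC305` (with `T6.InstLocalC`).  `tor`, `link`: `μt'`
= the image of `L.μt v` under `t ↦ GL₂(i)(t)`; `GL₂(i)` maps the centraliser of `γ_v` ONTO the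
twisted centraliser of `δ_w` (local `T6.TwCentC`: `N δ_w = i(γ_v)` is regular), it is a
homeomorphism onto (closed embedding: `val_i`), so the image is a Haar measure; it maps
`{tr integral, det unit}` onto itself (`v(i x) = v(x)^e`, `e > 0`), so the normalisation is
kept.  `cut`: `LocCutC305` for `(s_w, δ_w, μt')`. -/
def UpInertC341 : Prop :=
  T6.T6Out →
  ∀ D : CompData K K', IsCompData D → IsCycExt K K' D.l →
    ∀ ι : Adl K →+* Adl K', IsAdeleBase305 D.s D.l ι →
    ∀ (n : HeightOneSpectrum (𝓞 K') → ℕ) (m : HeightOneSpectrum (𝓞 K) → ℕ)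
      (δ : GL (Fin 2) K') (γ : GL (Fin 2) K), T6.IsEll γ →
      D.s.normUpTo D.l δ = Matrix.GeneralLinearGroup.map (algebraMap K K') γ →
    ∀ L : LocData305 K γ, IsLocData305 m L →
    ∀ (v : HeightOneSpectrum (𝓞 K)) (w : HeightOneSpectrum (𝓞 K')), PlaceOver K K' v w →
      (∀ w' : HeightOneSpectrum (𝓞 K'), PlaceOver K K' v w' → w' = w) →
      ∃ d : InertDat340 δ v, d.w = w ∧ IsInertDat340 D ι n L d

/-- **LEAF UD.2 = UP-SPLIT.**  At a finite place `v` which has NOT exactly one place over it the
local data upstairs exist.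
Proof.  `H584.SplitOrUniqueC584` (closed): there is a place `w₀` over `v` with residue degree
and ramification index `1`; `g e f = l`, `l` prime, `g ≠ 1`: `g = l` and EVERY place over `v`
has `e = f = 1`.  The Galois group `⟨σ⟩` acts transitively on the places over `v`:
`w_j = σ^{-j}(w₀)` (so `T5.PlaceRel D.s (w (j+1)) (w j)`), `w_0, …, w_{l-1}` are distinct
(the stabiliser of `w₀` is trivial: `g = l`) and are all the places over `v`.  `i_j`, `rat_i`,
`val_i`: `T6.InstSplitC`.  `iot`: `IsAdeleBase305.fin` and uniqueness of `i_j` (density of `K`,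
continuity).  `sig`: `SigmaLocC305 K'` for `PlaceRel D.s (w (a+1)) (w a)` gives
`s_a : K'_{w_{a+1}} ≃ K'_{w_a}` over `σ` with `(σ_𝔸 x)_{w_a} = s_a(x_{w_{a+1}})`;
`i_a⁻¹ ∘ s_a ∘ i_{a+1}` is a continuous automorphism of `K_v` which is the identity on `K`, so
the identity; for `a = l - 1` the index `a + 1` is read modulo `l`: `w_l = w_0` and `i_l`, `i_0`
agree (`cycSucc340`). -/
def UpSplitC341 : Prop :=
  T6.T6Out →
  ∀ D : CompData K K', IsCompData D → IsCycExt K K' D.l →
    ∀ ι : Adl K →+* Adl K', IsAdeleBase305 D.s D.l ι →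
    ∀ v : HeightOneSpectrum (𝓞 K), ¬ OnePlace341 K K' v →
      ∃ d : SplitDat340 K' v, IsSplitDat340 D ι d

/-- **LEAF UD.3 = UP-ARCH.**  `K` totally complex: at an infinite place `v` of `K` the local data
upstairs exist.
Proof.  `K'/K` Galois of degree `l`, `v` complex: there are exactly `l` places of `K'` over `v`
(`H193.FibCardC`, closed), permuted transitively by `⟨σ⟩`: `w_{a+1} = w_a ∘ σ`
(`InfinitePlace.comap`), `w_0, …, w_{l-1}` distinct, all the places over `v`.  `d_a`, `typ`,
`iot`: `IsAdeleBase305.inf` (`d_a = id` or the complex conjugation).  `sig`: `SigmaLocC305 K'`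
at `w_a` (`(σ_𝔸 x)_{w_a} = x_{w_a ∘ σ}` or its conjugate) and `IsAdeleBase305.fixed`
(`σ_𝔸 ι = ι`): on the image of `ι` the two sides agree, which fixes the type; the image of
`T5.infHom v` is `ℂ` (`v` complex). -/
def UpArchC341 : Prop :=
  ∀ D : CompData K K', IsCompData D → IsCycExt K K' D.l → TotCplx K →
    ∀ ι : Adl K →+* Adl K', IsAdeleBase305 D.s D.l ι →
    ∀ v : InfinitePlace K, ∃ d : ArchDat340 K', IsArchDat340 D ι v d

end TwoFields

/-! ## Appendix: the equation lemmas of the definitions of this file are realised HERE -/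

theorem eqns_realised_upDat341 : True := by
  have _h0 := @OnePlace341.eq_1
  have _h1 := @UpInertC341.eq_1
  have _h2 := @UpSplitC341.eq_1
  have _h3 := @UpArchC341.eq_1
  have _g0 := @OnePlace341.eq_def
  have _g1 := @UpInertC341.eq_def
  have _g2 := @UpSplitC341.eq_def
  have _g3 := @UpArchC341.eq_def
  trivial

end Fermat.Agent.LT.T7.UD341

end
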