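import Mathlib
import Fermat.Agent.LT.T7.H341.UpDatSpec

/-!
# Row LT, tower T7, node UD.1 `UD341.UpInertC341` (helper341, registry 2780): THE CUT -- Spec

OFF-MAIN.  Frozen Props only (the proved top `upInertC_of341` is in `UpInertTop.lean`).  No hole,
nothing assumed.  ADDITIVE (new names only, suffix `341`, namespace
`Fermat.Agent.LT.T7.UD341`).

    upInertC_of341 : LocMeasC305 → LocCutC305 → SigmaLocC305 (K := K') →
      InertExtC341 K K' → InertTorC341 → UpInertC341 K K'

`LocMeasC305`, `LocCutC305`, `SigmaLocC305` are CLOSED (helper729 `locMeasC729`, helper543,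
helper558 `sigmaLocC558`).  The norm relation `N δ_w = i(γ_v)` and the regularity of `γ_v` are
proved in the top.

* `InertExtC341` (TWO number fields, ONE place `w` over `v`): the triple `(e, i, s_w)` of
  `T6.InstExtC` with the two adelic compatibilities `sig`, `iot`.  Algebra and one density
  argument; no measure.
* `InertTorC341` (ABSTRACT local fields `k ⊆ k'`, no number field): the Haar measure of the
  twisted centraliser upstairs is the image of the one of the centraliser downstairs.
-/

set_option autoImplicit false

open AutomorphicForm IsDedekindDomain NumberField MeasureTheory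
open scoped ComplexConjugate

noncomputable section

namespace Fermat.Agent.LT.T7.UD341

open Fermat.Agent.LT.H556 Fermat.Agent.LT.H556.A0 Fermat.Agent.LT.T7 Fermat.Agent.LT.T7.H305
open Fermat.Agent.LT.T7.H340

attribute [local instance] Fermat.Agent.LT.T5.instMeasurableSpaceG

/-- **LEAF UI.2 = INERT-TOR (abstract local fields, NO number field).**  `k'/k` a cyclic
extension of valued fields (`T6.IsLocalExt`), `γ ∈ GL₂(k)` regular, `N δ = i(γ)`, `μt` a
normalised Haar measure of the centraliser of `γ`: there is a normalised Haar measure `μt'` of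
the `s`-twisted centraliser of `δ` which is the image of `μt` under `t ↦ GL₂(i)(t)`.
Proof.  `φ : t ↦ GL₂(i)(t)` maps the centraliser of `γ` ONTO the twisted centraliser of `δ`
(`T6.TwCentC` for `IsLocalExt.cyc`; `glAut refl = id`), it is an injective homomorphism
(`i` is injective) and a topological embedding: `v'(i x) = v(x)^e`, `e > 0`, so the topology of
`k` is induced by `i`, hence the one of `M₂(k)` by `M₂(i)` and the one of the units by `GL₂(i)`
(`Units.isEmbedding_embedProduct`).  So `φ` is an isomorphism of topological groups and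
`μt' = Measure.map φ μt` is a Haar measure (`MulEquiv.isHaarMeasure_map`).  The link is
`Measure.map_apply` (`φ` is continuous, `{t | ↑t ∈ A}` is a Borel set).  Normalisation:
`tr(GL₂(i) t) = i(tr t)`, `det(GL₂(i) t) = i(det t)`, `v(x)^e ≤ 1 ↔ v(x) ≤ 1`,
`v(x)^e = 1 ↔ v(x) = 1`.  (No local compactness is needed.) -/
def InertTorC341 : Prop :=
  T6.TwCentC →
  ∀ (k k' : Type) [Field k] [Field k'] [Valued k T6.Γ₀] [Valued k' T6.Γ₀] (l e : ℕ)
    (i : k →+* k') (s : k' ≃+* k'), T6.IsLocalExt k k' l e i s →
    ∀ (δ : GL (Fin 2) k') (γ : GL (Fin 2) k), T6.IsReg γ →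
      T6.twNorm s l δ = Matrix.GeneralLinearGroup.map i γ →
    ∀ μt : @Measure (T6.twCentSub (T6.glAut (RingEquiv.refl k)) γ) (borel _),
      IsLocTor305 (RingEquiv.refl k) γ μt →
      ∃ μt' : @Measure (T6.twCentSub (T6.glAut s) δ) (borel _),
        IsLocTor305 s δ μt' ∧
        ∀ A : Set (GL (Fin 2) k'), @MeasurableSet _ (borel _) A →
          μt' {t | (t : GL (Fin 2) k') ∈ A}
            = μt {t | Matrix.GeneralLinearGroup.map i (t : GL (Fin 2) k) ∈ A}

section TwoFields

variable (K K' : Type) [Field K] [NumberField K] [Field K'] [NumberField K'] [Algebra K K']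

/-- **LEAF UI.1 = INERT-EXT (ONE place `w` over `v`).**  The embedding `i : K_v → K'_w` of the
completions and the local automorphism `s_w` of `K'_w`, with the ramification index `e`: they
extend `K → K'` and `σ`, form a cyclic extension of local fields of degree `l`, and are the
components of `ι` and of `σ_𝔸`.
Proof.  `σ = D.s.σ` fixes `K` (`IsCompData.cyc.fixed`, `IsCompData.base`), so it is a
`K`-algebra automorphism; it has order exactly `l` (`pow_eq`, `faithful`) and the Galois group
has `l = [K' : K]` elements (`IsCycExt`), so it generates.  `PlaceOver v w` gives the first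
hypothesis of `T6.InstExtC`; the second: if `v ⊆ w' ∩ 𝓞_K` then `w' ∩ 𝓞_K = v` (`v` is maximal,
`1 ∉ w'`), so `PlaceOver v w'` and `w' = w`.  `T6.InstExtC` gives `(e, i, s_w)` with `rat_i`,
`rat_s`, `IsLocalExt` (`finrank = l`).  `σ(w)` is a place over `v`, so `σ(w) = w`:
`T5.PlaceRel D.s w w`, and `SigmaLocC305` gives `s'` over `σ` with `(σ_𝔸 a)_w = s'(a_w)` and
`v(s' x) = v(x)`; `s' = s_w`: both are continuous (`val_s`) and agree on the dense subfield
`K'`.  `IsAdeleBase305.fin` gives `i'` with `(ι x)_w = i'(x_v)`, `v(i' x) = v(x)^{e'}`, `e' > 0`;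
`i' = i`: both are continuous and agree on the dense subfield `K`. -/
def InertExtC341 : Prop :=
  T6.InstExtC → SigmaLocC305 (K := K') →
  ∀ D : CompData K K', IsCompData D → IsCycExt K K' D.l →
    ∀ ι : Adl K →+* Adl K', IsAdeleBase305 D.s D.l ι →
    ∀ (v : HeightOneSpectrum (𝓞 K)) (w : HeightOneSpectrum (𝓞 K')), PlaceOver K K' v w →
      (∀ w' : HeightOneSpectrum (𝓞 K'), PlaceOver K K' v w' → w' = w) →
      ∃ (e : ℕ) (i : v.adicCompletion K →+* w.adicCompletion K')
        (sw : w.adicCompletion K' ≃+* w.adicCompletion K'),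
        (∀ x : K, i (algebraMap K (v.adicCompletion K) x)
          = algebraMap K' (w.adicCompletion K') (algebraMap K K' x)) ∧
        (∀ y : K', sw (algebraMap K' (w.adicCompletion K') y)
          = algebraMap K' (w.adicCompletion K') (D.s.σ y)) ∧
        T6.IsLocalExt (v.adicCompletion K) (w.adicCompletion K') D.l e i sw ∧
        (∀ a : Adl K', T5.finHom w (D.s.σA a) = sw (T5.finHom w a)) ∧
        ∀ x : Adl K, T5.finHom w (ι x) = i (T5.finHom v x)

end TwoFields

/-! ## Appendix: the equation lemmas of the definitions of this file are realised HERE -/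

theorem eqns_realised_upInert341 : True := by
  have _h0 := @InertTorC341.eq_1
  have _h1 := @InertExtC341.eq_1
  have _g0 := @InertTorC341.eq_def
  have _g1 := @InertExtC341.eq_def
  trivial

end Fermat.Agent.LT.T7.UD341

end
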