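import Mathlib
import Fermat.Agent.LT.T7.H341.UpInertSpec

/-!
# Row LT, tower T7, node UD.1 `UD341.UpInertC341` (helper341, registry 2780): THE TOP

OFF-MAIN.  PROVED, nothing assumed.

    upInertC_of341 : LocMeasC305 → LocCutC305 → SigmaLocC305 (K := K') →
      InertExtC341 K K' → InertTorC341 → UpInertC341 K K'
-/

set_option autoImplicit false
set_option linter.unusedSectionVars false
set_option linter.unusedVariables false

open AutomorphicForm IsDedekindDomain NumberField MeasureTheory
open scoped ComplexConjugate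

noncomputable section

namespace Fermat.Agent.LT.T7.UD341

open Fermat.Agent.LT.H556 Fermat.Agent.LT.H556.A0 Fermat.Agent.LT.T7 Fermat.Agent.LT.T7.H305
open Fermat.Agent.LT.T7.H340

attribute [local instance] Fermat.Agent.LT.T5.instMeasurableSpaceG

/-! ## 1. `GL₂` of ring homomorphisms -/

section Alg

variable {R S T : Type} [CommRing R] [CommRing S] [CommRing T]

/-- `GL₂(g ∘ f) = GL₂(g) ∘ GL₂(f)`, pointwise. -/
theorem glMap_glMap341 (f : R →+* S) (g : S →+* T) (x : GL (Fin 2) R) :
    Matrix.GeneralLinearGroup.map g (Matrix.GeneralLinearGroup.map f x)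
      = Matrix.GeneralLinearGroup.map (g.comp f) x := by
  apply Units.ext
  ext a b
  rfl

/-- Two ring homomorphisms which agree pointwise give the same map on `GL₂`. -/
theorem glMap_congr341 {f g : R →+* S} (h : ∀ x, f x = g x) (x : GL (Fin 2) R) :
    Matrix.GeneralLinearGroup.map f x = Matrix.GeneralLinearGroup.map g x := by
  have : f = g := RingHom.ext h
  rw [this]

/-- The trace of `GL₂(f)(x)`. -/
theorem trace_glMap341 (f : R →+* S) (x : GL (Fin 2) R) :
    ((Matrix.GeneralLinearGroup.map f x : GL (Fin 2) S) : Matrix (Fin 2) (Fin 2) S).trace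
      = f ((x : Matrix (Fin 2) (Fin 2) R).trace) := by
  rw [Matrix.trace_fin_two, Matrix.trace_fin_two, map_add]
  rfl

/-- The determinant of `GL₂(f)(x)`. -/
theorem det_glMap341 (f : R →+* S) (x : GL (Fin 2) R) :
    ((Matrix.GeneralLinearGroup.map f x : GL (Fin 2) S) : Matrix (Fin 2) (Fin 2) S).det
      = f ((x : Matrix (Fin 2) (Fin 2) R).det) := by
  rw [Matrix.det_fin_two, Matrix.det_fin_two, map_sub, map_mul, map_mul]
  rfl

/-- The discriminant of `GL₂(f)(x)`. -/
theorem disc_glMap341 (f : R →+* S) (x : GL (Fin 2) R) :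
    T6.disc (Matrix.GeneralLinearGroup.map f x) = f (T6.disc x) := by
  show _ ^ 2 - 4 * _ = f (_ ^ 2 - 4 * _)
  rw [trace_glMap341, det_glMap341, map_sub, map_mul, map_pow]
  congr 2
  exact (map_ofNat f 4).symm

/-- `GL₂(f)` preserves regular elements. -/
theorem isReg_glMap341 (f : R →+* S) {x : GL (Fin 2) R} (hx : T6.IsReg x) :
    T6.IsReg (Matrix.GeneralLinearGroup.map f x) := by
  show IsUnit (T6.disc _)
  rw [disc_glMap341]
  exact hx.map f

end Alg

/-! ## 2. The norm relation at the place -/

section Norm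

variable {K' : Type} [Field K'] [NumberField K']

/-- `(N δ)_w = N_{s_w}(δ_w)` for a local automorphism `s_w` over `σ`. -/
theorem locG_normUpTo341 (s : T5.AdelicAut K') (w : HeightOneSpectrum (𝓞 K'))
    (sw : w.adicCompletion K' ≃+* w.adicCompletion K')
    (hrs : ∀ y : K', sw (algebraMap K' (w.adicCompletion K') y)
      = algebraMap K' (w.adicCompletion K') (s.σ y)) (δ : GL (Fin 2) K') (n : ℕ) :
    locG305 w (s.normUpTo n δ) = T6.twNorm sw n (locG305 w δ) := by
  induction n with
  | zero =>
    show locG305 w 1 = 1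
    exact map_one _
  | succ n ih =>
    show locG305 w (δ * s.onRat (s.normUpTo n δ))
      = locG305 w δ * T6.glAut sw (T6.twN (T6.glAut sw) n (locG305 w δ))
    rw [map_mul]
    congr 1
    have ih' : T6.twN (T6.glAut sw) n (locG305 w δ) = locG305 w (s.normUpTo n δ) := ih.symm
    rw [ih']
    show Matrix.GeneralLinearGroup.map (algebraMap K' (w.adicCompletion K'))
        (Matrix.GeneralLinearGroup.map (s.σ : K' →+* K') (s.normUpTo n δ))
      = Matrix.GeneralLinearGroup.map (sw : w.adicCompletion K' →+* w.adicCompletion K')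
        (Matrix.GeneralLinearGroup.map (algebraMap K' (w.adicCompletion K')) (s.normUpTo n δ))
    rw [glMap_glMap341, glMap_glMap341]
    exact glMap_congr341 (fun y => (hrs y).symm) _

end Norm

/-! ## 3. The top -/

variable (K K' : Type) [Field K] [NumberField K] [Field K'] [NumberField K'] [Algebra K K']

/-- **THE TOP of the cut of `UpInertC341`.** -/
theorem upInertC_of341 (hM : LocMeasC305) (hC : LocCutC305) (hS : SigmaLocC305 (K := K'))
    (hE : InertExtC341 K K') (hT : InertTorC341) : UpInertC341 K K' := by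
  intro hT6 D hD hcyc ι hι n m δ γ hγ hN L hL v w hvw huniq
  have hTw : T6.TwCentC := hT6.2.2.1
  have hIL : T6.InstLocalC := hT6.2.2.2.2.2.1
  have hIE : T6.InstExtC := hT6.2.2.2.2.2.2.1
  obtain ⟨e, i, sw, hri, hrs, hext, hsig, hiot⟩ := hE hIE hS D hD hcyc ι hι v w hvw huniq
  -- the norm relation
  have hnorm : T6.twNorm sw D.l (locG305 w δ)
      = Matrix.GeneralLinearGroup.map i (locG305 v γ) := by
    rw [← locG_normUpTo341 D.s w sw hrs δ D.l, hN]
    show Matrix.GeneralLinearGroup.map (algebraMap K' (w.adicCompletion K'))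
        (Matrix.GeneralLinearGroup.map (algebraMap K K') γ)
      = Matrix.GeneralLinearGroup.map i
        (Matrix.GeneralLinearGroup.map (algebraMap K (v.adicCompletion K)) γ)
    rw [glMap_glMap341, glMap_glMap341]
    exact glMap_congr341 (fun x => (hri x).symm) _
  have hreg : T6.IsReg (locG305 v γ) := isReg_glMap341 _ hγ.1
  have hreg' : T6.IsReg (T6.twNorm sw D.l (locG305 w δ)) := by
    rw [hnorm]
    exact isReg_glMap341 _ hreg
  -- the torus measure
  obtain ⟨μt', htor, hlink⟩ := hT hTw (v.adicCompletion K) (w.adicCompletion K') D.l e i sw hext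
    (locG305 w δ) (locG305 v γ) hreg hnorm (L.μt v) (hL.tor v)
  -- the Haar measure and the cut-off
  have hlf : T6.IsLocalField (w.adicCompletion K') (Ideal.absNorm w.asIdeal) := hIL K' w
  obtain ⟨μ', hμ'⟩ := (hM (w.adicCompletion K') (Ideal.absNorm w.asIdeal) hlf).1 (n w)
  obtain ⟨β', hβ'⟩ := hC (w.adicCompletion K') (Ideal.absNorm w.asIdeal) hlf D.l sw hext.val_s
    hext.cyc.pos hext.cyc.order (locG305 w δ) hreg' μt' htor.1
  exact ⟨⟨w, e, i, sw, μ', μt', β'⟩, rfl,
    ⟨hvw, huniq, hri, hrs, hext, hμ', htor, hβ', hsig, hiot, hlink⟩⟩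

end Fermat.Agent.LT.T7.UD341

end
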