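import Mathlib
import Fermat.Agent.LT.T7.SM640.StepMDatSpec

/-!
# Row LT, tower T7, node `BQ87.StepMDatQC87` (registry row 3188), cut of helper640
# (`T7/SM640/StepMDatSpec.lean` 3bc5afa1): the GLOBAL leaves SM.6 `StepTelC640 F` and
# SM.7 `StepFtC640 F`, PROVED VERBATIM, UNCONDITIONAL (helper341)

OFF-MAIN.  ADDITIVE (new names only, suffix `341`, namespace `Fermat.Agent.LT.T7.SMT341`).
No hole, nothing assumed.

* `tel_seg341` (Mathlib + `T3.M.Crd` vocabulary): telescoping of a finite sum of pure tensors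
  is preserved when the ONE archimedean component is replaced by `k ∫_{lo}^{hi}` of its
  translates along `(a, -a)` (finite supports at ONE finite index of positive exponent: only
  finitely many `j` contribute, uniformly in the variable of the segment).
* `seg_mass341` (Mathlib only): for `β` continuous of compact support the segment integral is
  integrable and its integral is `(hi - lo) ∫ β` (Fubini on the strip + translation invariance).
* `ft_seg341`: the Fourier transform `T3.M.ftCrd` of the new sum is `k (hi - lo)` times the old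
  one.
* `stepTelC_closed341 (F) : SM640.StepTelC640 F`, `stepFtC_closed341 (F) : SM640.StepFtC640 F`.
-/

set_option autoImplicit false

open AutomorphicForm IsDedekindDomain NumberField MeasureTheory

noncomputable section

namespace Fermat.Agent.LT.T7.SMT341

open Fermat.Agent.LT Fermat.Agent.LT.T3.M

/-- The shift of the archimedean coordinates by `(a, -a)`. -/
def shiftCrd341 {ι₁ ι₂ : Type} (a : ℝ) (p : Crd ι₁ ι₂) : Crd ι₁ ι₂ :=
  (p.1, fun w => ((p.2 w).1 + a, (p.2 w).2 - a))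

theorem shiftCrd_add341 {ι₁ ι₂ : Type} (a : ℝ) (Δ c : Crd ι₁ ι₂) (j : ℤ) :
    shiftCrd341 a (Δ + j • c) = shiftCrd341 a Δ + j • c := by
  refine Prod.ext rfl ?_
  funext w
  refine Prod.ext ?_ ?_
  · show ((Δ + j • c).2 w).1 + a = ((Δ.2 w).1 + a) + ((j • c).2 w).1
    show (Δ.2 w).1 + ((j • c).2 w).1 + a = ((Δ.2 w).1 + a) + ((j • c).2 w).1
    ring
  · show ((Δ + j • c).2 w).2 - a = ((Δ.2 w).2 - a) + ((j • c).2 w).2
    show (Δ.2 w).2 + ((j • c).2 w).2 - a = ((Δ.2 w).2 - a) + ((j • c).2 w).2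
    ring

/-- With ONE archimedean index: the pure tensor with the segment average at infinity is the
segment integral of the shifted pure tensor. -/
theorem pureCrd_seg341 {ι₁ ι₂ : Type} [Fintype ι₁] [Fintype ι₂] (w₀ : ι₂)
    (hw : ∀ w : ι₂, w = w₀) (A : ι₁ → ℤ × ℤ → ℂ) (β : ι₂ → ℝ × ℝ → ℂ) (k : ℂ) (lo hi : ℝ)
    (p : Crd ι₁ ι₂) :
    pureCrd A (fun w X => k * ∫ a in lo..hi, β w (X.1 + a, X.2 - a)) p
      = k * ∫ a in lo..hi, pureCrd A β (shiftCrd341 a p) := by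
  have h1 : ∀ g : ι₂ → ℂ, ∏ w, g w = g w₀ := fun g =>
    Fintype.prod_eq_single w₀ (fun w hne => absurd (hw w) hne)
  show (∏ i, A i (p.1 i)) * ∏ w, (k * ∫ a in lo..hi, β w ((p.2 w).1 + a, (p.2 w).2 - a))
      = k * ∫ a in lo..hi, (∏ i, A i (p.1 i)) * ∏ w, β w ((p.2 w).1 + a, (p.2 w).2 - a)
  rw [h1]
  have h2 : ∀ a : ℝ, (∏ w, β w ((p.2 w).1 + a, (p.2 w).2 - a))
      = β w₀ ((p.2 w₀).1 + a, (p.2 w₀).2 - a) := fun a => h1 _
  simp only [h2]
  rw [intervalIntegral.integral_const_mul]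
  ring

theorem continuous_pureCrd_shift341 {ι₁ ι₂ : Type} [Fintype ι₁] [Fintype ι₂]
    (A : ι₁ → ℤ × ℤ → ℂ) (β : ι₂ → ℝ × ℝ → ℂ) (hβ : ∀ w, Continuous (β w))
    (p : Crd ι₁ ι₂) : Continuous (fun a : ℝ => pureCrd A β (shiftCrd341 a p)) := by
  show Continuous (fun a : ℝ =>
    (∏ i, A i (p.1 i)) * ∏ w, β w ((p.2 w).1 + a, (p.2 w).2 - a))
  refine continuous_const.mul (continuous_finsetProd _ (fun w _ => ?_))
  exact (hβ w).comp (by fun_prop)

/-- **Telescoping is preserved by the segment average at infinity** (one archimedean index,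
finitely supported finite coefficients, continuous archimedean coefficients, one positive
exponent). -/
theorem tel_seg341 {ι₁ ι₂ : Type} [Fintype ι₁] [Fintype ι₂] (w₀ : ι₂)
    (hw : ∀ w : ι₂, w = w₀) (N : ℕ) (A : Fin N → ι₁ → ℤ × ℤ → ℂ)
    (β : Fin N → ι₂ → ℝ × ℝ → ℂ)
    (hA : ∀ i v, (Function.support (A i v)).Finite) (hβ : ∀ i w, Continuous (β i w))
    (e : ι₁ → ℕ) (ℓ : ι₂ → ℝ) (i₀ : ι₁) (he : 0 < e i₀) (k : ℂ) (lo hi : ℝ)
    (htel : ∀ Δ : Crd ι₁ ι₂,
      HasSum (fun j : ℤ => ∑ i : Fin N, pureCrd (A i) (β i) (Δ + j • c0 e ℓ)) 0)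
    (Δ : Crd ι₁ ι₂) :
    HasSum (fun j : ℤ => ∑ i : Fin N,
      pureCrd (A i) (fun w X => k * ∫ a in lo..hi, β i w (X.1 + a, X.2 - a))
        (Δ + j • c0 e ℓ)) 0 := by
  classical
  -- the finite set of indices
  have hinj : Function.Injective (fun j : ℤ => (Δ + j • c0 e ℓ).1 i₀) := by
    intro j j' hjj
    have h1 : ((Δ + j • c0 e ℓ).1 i₀).1 = ((Δ + j' • c0 e ℓ).1 i₀).1 := congrArg Prod.fst hjj
    have h2 : ∀ t : ℤ, ((Δ + t • c0 e ℓ).1 i₀).1 = (Δ.1 i₀).1 + t * (e i₀ : ℤ) := by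
      intro t
      show (Δ.1 i₀).1 + ((t • c0 e ℓ).1 i₀).1 = _
      show (Δ.1 i₀).1 + t • (((e i₀ : ℕ) : ℤ)) = _
      rw [smul_eq_mul]
    rw [h2, h2] at h1
    have h3 : j * (e i₀ : ℤ) = j' * (e i₀ : ℤ) := by linarith
    have h4 : ((e i₀ : ℕ) : ℤ) ≠ 0 := by exact_mod_cast he.ne'
    exact mul_right_cancel₀ h4 h3
  have hJfin : {j : ℤ | ∃ i : Fin N, A i i₀ ((Δ + j • c0 e ℓ).1 i₀) ≠ 0}.Finite := by
    have : {j : ℤ | ∃ i : Fin N, A i i₀ ((Δ + j • c0 e ℓ).1 i₀) ≠ 0}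
        = ⋃ i : Fin N, (fun j : ℤ => (Δ + j • c0 e ℓ).1 i₀) ⁻¹' Function.support (A i i₀) := by
      ext j
      simp [Function.mem_support]
    rw [this]
    exact Set.finite_iUnion (fun i => (hA i i₀).preimage hinj.injOn)
  set J : Finset ℤ := hJfin.toFinset with hJ
  -- vanishing outside `J`
  have hzero : ∀ (β' : Fin N → ι₂ → ℝ × ℝ → ℂ) (j : ℤ), j ∉ J →
      ∀ q : Crd ι₁ ι₂, q.1 = (Δ + j • c0 e ℓ).1 →
        ∑ i : Fin N, pureCrd (A i) (β' i) q = 0 := by
    intro β' j hj q hq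
    refine Finset.sum_eq_zero (fun i _ => ?_)
    have hAz : A i i₀ ((Δ + j • c0 e ℓ).1 i₀) = 0 := by
      by_contra hne
      exact hj (hJfin.mem_toFinset.2 ⟨i, hne⟩)
    show (∏ v, A i v (q.1 v)) * ∏ w, β' i w (q.2 w) = 0
    rw [Finset.prod_eq_zero (Finset.mem_univ i₀) (by rw [hq]; exact hAz), zero_mul]
  -- the new function is supported in `J`
  have hsupp : ∀ j : ℤ, j ∉ J → (∑ i : Fin N,
      pureCrd (A i) (fun w X => k * ∫ a in lo..hi, β i w (X.1 + a, X.2 - a))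
        (Δ + j • c0 e ℓ)) = 0 := fun j hj => hzero _ j hj _ rfl
  have hsum : HasSum (fun j : ℤ => ∑ i : Fin N,
      pureCrd (A i) (fun w X => k * ∫ a in lo..hi, β i w (X.1 + a, X.2 - a))
        (Δ + j • c0 e ℓ)) (∑ j ∈ J, (∑ i : Fin N,
      pureCrd (A i) (fun w X => k * ∫ a in lo..hi, β i w (X.1 + a, X.2 - a))
        (Δ + j • c0 e ℓ))) := hasSum_sum_of_ne_finset_zero hsupp
  -- the finite sum vanishes
  have hval : ∑ j ∈ J, (∑ i : Fin N,
      pureCrd (A i) (fun w X => k * ∫ a in lo..hi, β i w (X.1 + a, X.2 - a))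
        (Δ + j • c0 e ℓ)) = 0 := by
    have hrew : ∀ j : ℤ, (∑ i : Fin N,
        pureCrd (A i) (fun w X => k * ∫ a in lo..hi, β i w (X.1 + a, X.2 - a))
          (Δ + j • c0 e ℓ))
        = k * ∫ a in lo..hi, ∑ i : Fin N,
            pureCrd (A i) (β i) (shiftCrd341 a Δ + j • c0 e ℓ) := by
      intro j
      have h1 : ∀ i : Fin N,
          pureCrd (A i) (fun w X => k * ∫ a in lo..hi, β i w (X.1 + a, X.2 - a))
            (Δ + j • c0 e ℓ)
          = k * ∫ a in lo..hi, pureCrd (A i) (β i) (shiftCrd341 a Δ + j • c0 e ℓ) := by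
        intro i
        rw [pureCrd_seg341 w₀ hw]
        congr 1
        refine intervalIntegral.integral_congr (fun a _ => ?_)
        show pureCrd (A i) (β i) (shiftCrd341 a (Δ + j • c0 e ℓ)) = _
        rw [shiftCrd_add341]
      rw [Finset.sum_congr rfl (fun i _ => h1 i), ← Finset.mul_sum,
        intervalIntegral.integral_finsetSum]
      intro i _
      have hc : Continuous (fun a : ℝ =>
          pureCrd (A i) (β i) (shiftCrd341 a Δ + j • c0 e ℓ)) := by
        have := continuous_pureCrd_shift341 (A i) (β i) (hβ i) (Δ + j • c0 e ℓ)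
        refine this.congr (fun a => ?_)
        rw [shiftCrd_add341]
      exact hc.intervalIntegrable _ _
    rw [Finset.sum_congr rfl (fun j _ => hrew j), ← Finset.mul_sum,
      ← intervalIntegral.integral_finsetSum]
    · have hz : ∀ a : ℝ, ∑ j ∈ J, ∑ i : Fin N,
          pureCrd (A i) (β i) (shiftCrd341 a Δ + j • c0 e ℓ) = 0 := by
        intro a
        have hs : HasSum (fun j : ℤ => ∑ i : Fin N,
            pureCrd (A i) (β i) (shiftCrd341 a Δ + j • c0 e ℓ))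
            (∑ j ∈ J, ∑ i : Fin N,
              pureCrd (A i) (β i) (shiftCrd341 a Δ + j • c0 e ℓ)) :=
          hasSum_sum_of_ne_finset_zero (fun j hj => hzero β j hj _ rfl)
        exact hs.unique (htel (shiftCrd341 a Δ))
      simp only [hz, intervalIntegral.integral_zero, mul_zero]
    · intro j _
      have hc : Continuous (fun a : ℝ => ∑ i : Fin N,
          pureCrd (A i) (β i) (shiftCrd341 a Δ + j • c0 e ℓ)) := by
        refine continuous_finsetSum _ (fun i _ => ?_)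
        have := continuous_pureCrd_shift341 (A i) (β i) (hβ i) (Δ + j • c0 e ℓ)
        refine this.congr (fun a => ?_)
        rw [shiftCrd_add341]
      exact hc.intervalIntegrable _ _
  rw [hval] at hsum
  exact hsum

/-- The shifted function is integrable on the strip. -/
theorem integrableOn_seg341 (β : ℝ × ℝ → ℂ) (hc : Continuous β) (hs : HasCompactSupport β)
    (lo hi : ℝ) :
    IntegrableOn (fun p : (ℝ × ℝ) × ℝ => β (p.1.1 + p.2, p.1.2 - p.2))
      (Set.univ ×ˢ Set.Ioc lo hi) ((volume : Measure (ℝ × ℝ)).prod (volume : Measure ℝ)) := by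
  obtain ⟨R₀, hR₀⟩ := hs.isCompact.isBounded.subset_closedBall (0 : ℝ × ℝ)
  set M : ℝ := max |lo| |hi| with hM
  have hcont : Continuous (fun p : (ℝ × ℝ) × ℝ => β (p.1.1 + p.2, p.1.2 - p.2)) :=
    hc.comp (by fun_prop)
  have hKc : IsCompact (Metric.closedBall (0 : ℝ × ℝ) (R₀ + M) ×ˢ Set.Icc lo hi) :=
    (isCompact_closedBall _ _).prod isCompact_Icc
  have hK : IntegrableOn (fun p : (ℝ × ℝ) × ℝ => β (p.1.1 + p.2, p.1.2 - p.2))
      (Metric.closedBall (0 : ℝ × ℝ) (R₀ + M) ×ˢ Set.Icc lo hi)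
      ((volume : Measure (ℝ × ℝ)).prod (volume : Measure ℝ)) :=
    hcont.continuousOn.integrableOn_compact hKc
  refine hK.of_forall_sdiff_eq_zero (MeasurableSet.univ.prod measurableSet_Ioc) ?_
  rintro ⟨X, a⟩ ⟨⟨-, ha⟩, hnK⟩
  have ha' : a ∈ Set.Icc lo hi := ⟨ha.1.le, ha.2⟩
  have hX : X ∉ Metric.closedBall (0 : ℝ × ℝ) (R₀ + M) := fun h => hnK ⟨h, ha'⟩
  have hXn : R₀ + M < ‖X‖ := by
    rw [Metric.mem_closedBall, dist_zero_right] at hX
    exact not_le.1 hX
  have haM : |a| ≤ M := by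
    rw [abs_le]
    constructor
    · have : -|lo| ≤ lo := neg_abs_le lo
      have : |lo| ≤ M := le_max_left _ _
      linarith [ha'.1]
    · have : hi ≤ |hi| := le_abs_self hi
      have : |hi| ≤ M := le_max_right _ _
      linarith [ha'.2]
  show β (X.1 + a, X.2 - a) = 0
  apply image_eq_zero_of_notMem_tsupport
  intro hmem
  have hq := hR₀ hmem
  rw [Metric.mem_closedBall, dist_zero_right] at hq
  have hdiff : ‖X‖ ≤ ‖((X.1 + a, X.2 - a) : ℝ × ℝ)‖ + |a| := by
    have h1 : |X.1| ≤ ‖((X.1 + a, X.2 - a) : ℝ × ℝ)‖ + |a| := by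
      have : |X.1 + a| ≤ ‖((X.1 + a, X.2 - a) : ℝ × ℝ)‖ := by
        rw [Prod.norm_def]; exact le_max_left _ _
      have h2 : |X.1| ≤ |X.1 + a| + |a| := by
        have := abs_sub (X.1 + a) a
        simpa using this
      linarith
    have h1' : |X.2| ≤ ‖((X.1 + a, X.2 - a) : ℝ × ℝ)‖ + |a| := by
      have : |X.2 - a| ≤ ‖((X.1 + a, X.2 - a) : ℝ × ℝ)‖ := by
        rw [Prod.norm_def]; exact le_max_right _ _
      have h2 : |X.2| ≤ |X.2 - a| + |a| := by
        have := abs_add_le (X.2 - a) a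
        simpa using this
      linarith
    rw [Prod.norm_def X]
    exact max_le h1 h1'
  linarith

/-- The mass of the segment integral. -/
theorem seg_mass341 (β : ℝ × ℝ → ℂ) (hc : Continuous β) (hs : HasCompactSupport β)
    (lo hi : ℝ) (hle : lo ≤ hi) :
    Integrable (fun X : ℝ × ℝ => ∫ a in lo..hi, β (X.1 + a, X.2 - a)) ∧
      (∫ X : ℝ × ℝ, ∫ a in lo..hi, β (X.1 + a, X.2 - a))
        = ((hi - lo : ℝ) : ℂ) * ∫ X : ℝ × ℝ, β X := by
  have hint : Integrable (Function.uncurry (fun (X : ℝ × ℝ) (a : ℝ) => β (X.1 + a, X.2 - a)))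
      ((volume : Measure (ℝ × ℝ)).prod ((volume : Measure ℝ).restrict (Set.Ioc lo hi))) := by
    have h : Integrable (fun p : (ℝ × ℝ) × ℝ => β (p.1.1 + p.2, p.1.2 - p.2))
        (((volume : Measure (ℝ × ℝ)).prod (volume : Measure ℝ)).restrict
          (Set.univ ×ˢ Set.Ioc lo hi)) := integrableOn_seg341 β hc hs lo hi
    rw [← Measure.prod_restrict, Measure.restrict_univ] at h
    exact h
  have hrew : (fun X : ℝ × ℝ => ∫ a in lo..hi, β (X.1 + a, X.2 - a))
      = fun X : ℝ × ℝ => ∫ a, β (X.1 + a, X.2 - a)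
          ∂((volume : Measure ℝ).restrict (Set.Ioc lo hi)) := by
    funext X
    rw [intervalIntegral.integral_of_le hle]
  refine ⟨?_, ?_⟩
  · rw [hrew]
    exact hint.integral_prod_left
  · rw [hrew, integral_integral_swap hint]
    have hin : ∀ a : ℝ, (∫ X : ℝ × ℝ, β (X.1 + a, X.2 - a)) = ∫ X : ℝ × ℝ, β X := by
      intro a
      have := integral_add_right_eq_self (μ := (volume : Measure (ℝ × ℝ))) β ((a, -a) : ℝ × ℝ)
      rw [← this]
      refine integral_congr_ae (Filter.Eventually.of_forall (fun X => ?_))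
      show β (X.1 + a, X.2 - a) = β (X + (a, -a))
      congr 1
    simp only [hin]
    rw [setIntegral_const]
    simp only [measureReal_def, Real.volume_Ioc, ENNReal.toReal_ofReal (sub_nonneg.2 hle)]
    rw [Complex.real_smul]


/-- **The Fourier transform of the segment-averaged sum** (one archimedean index). -/
theorem ft_seg341 {ι₁ ι₂ : Type} [Fintype ι₁] [Fintype ι₂] (w₀ : ι₂)
    (hw : ∀ w : ι₂, w = w₀) (N : ℕ) (A : Fin N → ι₁ → ℤ × ℤ → ℂ)
    (β : Fin N → ι₂ → ℝ × ℝ → ℂ)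
    (hβc : ∀ i w, Continuous (β i w)) (hβs : ∀ i w, HasCompactSupport (β i w))
    (k : ℂ) (lo hi : ℝ) (hle : lo ≤ hi) (z₁ z₂ : ι₁ → ℂ) :
    ftCrd (fun p : Crd ι₁ ι₂ => ∑ i : Fin N,
        pureCrd (A i) (fun w X => k * ∫ a in lo..hi, β i w (X.1 + a, X.2 - a)) p) z₁ z₂
      = (k * ((hi - lo : ℝ) : ℂ)) *
          ftCrd (fun p : Crd ι₁ ι₂ => ∑ i : Fin N, pureCrd (A i) (β i) p) z₁ z₂ := by
  have h1 : ∀ g : ι₂ → ℂ, ∏ w, g w = g w₀ := fun g =>
    Fintype.prod_eq_single w₀ (fun w hne => absurd (hw w) hne)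
  -- integrability of the components
  have hi0 : ∀ i w, Integrable (β i w) := fun i w =>
    (hβc i w).integrable_of_hasCompactSupport (hβs i w)
  have hi1 : ∀ i w, Integrable (fun X : ℝ × ℝ => k * ∫ a in lo..hi, β i w (X.1 + a, X.2 - a)) :=
    fun i w => (seg_mass341 (β i w) (hβc i w) (hβs i w) lo hi hle).1.const_mul k
  have hm1 : ∀ i w, (∫ X : ℝ × ℝ, k * ∫ a in lo..hi, β i w (X.1 + a, X.2 - a))
      = (k * ((hi - lo : ℝ) : ℂ)) * ∫ X : ℝ × ℝ, β i w X := by
    intro i w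
    rw [integral_const_mul, (seg_mass341 (β i w) (hβc i w) (hβs i w) lo hi hle).2]
    ring
  -- the integral of a finite sum of pure tensors
  have hpure : ∀ (γ : Fin N → ι₂ → ℝ × ℝ → ℂ), (∀ i w, Integrable (γ i w)) →
      ∀ m : ι₁ → ℤ × ℤ,
        (∫ x : ι₂ → ℝ × ℝ, ∑ i : Fin N, pureCrd (A i) (γ i) (m, x))
          = ∑ i : Fin N, (∏ v, A i v (m v)) * ∫ X : ℝ × ℝ, γ i w₀ X := by
    intro γ hγ m
    have hint : ∀ i : Fin N, Integrable (fun x : ι₂ → ℝ × ℝ => pureCrd (A i) (γ i) (m, x)) := by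
      intro i
      show Integrable (fun x : ι₂ → ℝ × ℝ => (∏ v, A i v (m v)) * ∏ w, γ i w (x w))
      exact (Integrable.fintype_prod (fun w => hγ i w)).const_mul _
    rw [integral_finsetSum _ (fun i _ => hint i)]
    refine Finset.sum_congr rfl (fun i _ => ?_)
    show (∫ x : ι₂ → ℝ × ℝ, (∏ v, A i v (m v)) * ∏ w, γ i w (x w)) = _
    rw [integral_const_mul, integral_fintype_prod_volume_eq_prod, h1]
  show (∑ᶠ m : ι₁ → ℤ × ℤ, (∫ x : ι₂ → ℝ × ℝ, ∑ i : Fin N,
        pureCrd (A i) (fun w X => k * ∫ a in lo..hi, β i w (X.1 + a, X.2 - a)) (m, x))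
        * ∏ i, (z₁ i ^ (m i).1 * z₂ i ^ (m i).2))
      = (k * ((hi - lo : ℝ) : ℂ)) *
        ∑ᶠ m : ι₁ → ℤ × ℤ, (∫ x : ι₂ → ℝ × ℝ, ∑ i : Fin N, pureCrd (A i) (β i) (m, x))
          * ∏ i, (z₁ i ^ (m i).1 * z₂ i ^ (m i).2)
  rw [mul_finsum]
  refine finsum_congr (fun m => ?_)
  rw [hpure _ hi1 m, hpure _ hi0 m]
  simp only [hm1]
  rw [← mul_assoc, Finset.mul_sum]
  congr 1
  refine Finset.sum_congr rfl (fun i _ => ?_)
  ring

/-! ## The leaves of helper640 -/

open Fermat.Agent.LT.T7 Fermat.Agent.LT.T7.BQ87 Fermat.Agent.LT.T7.SM640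

/-- **LEAF SM.6 `StepTelC640 F`, PROVED VERBATIM.** -/
theorem stepTelC_closed341 (F : Type) [Field F] [NumberField F] : SM640.StepTelC640 F := by
  intro hIQ Φe B 𝔫 c T₀ n m D hD d hd y F0' F1'
  refine ⟨fun Δ => ?_, fun Δ => ?_⟩
  · obtain ⟨v₀, hv₀⟩ := hD.frame_up.nonempty
    obtain ⟨hss, hne⟩ := Nat.card_eq_one_iff_unique.1 hIQ.1
    obtain ⟨w₀⟩ := hne
    have hw : ∀ w : InfinitePlace F, w = w₀ := fun w => Subsingleton.elim _ _
    exact tel_seg341 (ι₁ := D.P') (ι₂ := InfinitePlace F) w₀ hw D.N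
      (fun i (v : D.P') => D.A' i v) D.β' (fun i v => (hD.symA' i v).1)
      (fun i w => (hD.symβ' i w).1.continuous) (fun v : D.P' => D.e' v)
      (fun w : InfinitePlace F => Real.log (w (D.α' : F))) ⟨v₀, hv₀⟩
      (hD.frame_up.pos v₀ hv₀) ((4 * Real.pi / Real.sinh d : ℝ) : ℂ) (-(d / 2)) (d / 2)
      hD.tel_up Δ
  · obtain ⟨v₀, hv₀⟩ := hD.frame_dn.nonempty
    have hw : ∀ w : InfinitePlace ℚ, w = default := fun w => Subsingleton.elim _ _
    exact tel_seg341 (ι₁ := D.P) (ι₂ := InfinitePlace ℚ) default hw D.N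
      (fun i (v : D.P) => D.A i v) D.β (fun i v => (hD.symA i v).1)
      (fun i w => (hD.symβ i w).1.continuous) (fun v : D.P => D.e v)
      (fun w : InfinitePlace ℚ => Real.log (w (D.α : ℚ))) ⟨v₀, hv₀⟩
      (hD.frame_dn.pos v₀ hv₀) ((2 * Real.pi / Real.sinh d : ℝ) : ℂ) (-d) d
      hD.tel_dn Δ

/-- **LEAF SM.7 `StepFtC640 F`, PROVED VERBATIM.** -/
theorem stepFtC_closed341 (F : Type) [Field F] [NumberField F] : SM640.StepFtC640 F := by
  intro hIQ Φe B 𝔫 c T₀ n m D hD d hd y F0' F1' z₁ z₂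
  obtain ⟨hss, hne⟩ := Nat.card_eq_one_iff_unique.1 hIQ.1
  obtain ⟨w₀⟩ := hne
  have hw : ∀ w : InfinitePlace F, w = w₀ := fun w => Subsingleton.elim _ _
  have hsinh : Real.sinh d ≠ 0 := (Real.sinh_pos_iff.2 hd).ne'
  have hconst : (((4 * Real.pi / Real.sinh d : ℝ) : ℂ) * ((d / 2 - -(d / 2) : ℝ) : ℂ))
      = ((4 * Real.pi * (d / Real.sinh d) : ℝ) : ℂ) := by
    rw [← Complex.ofReal_mul]
    congr 1
    field_simp
    ring
  have h := ft_seg341 (ι₁ := D.P') (ι₂ := InfinitePlace F) w₀ hw D.N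
    (fun i (v : D.P') => D.A' i v) D.β'
    (fun i w => (hD.symβ' i w).1.continuous) (fun i w => (hD.symβ' i w).2.1)
    ((4 * Real.pi / Real.sinh d : ℝ) : ℂ) (-(d / 2)) (d / 2) (by linarith)
    (fun v : D.P' => z₁ v) (fun v : D.P' => z₂ v)
  rw [hconst] at h
  exact h

/-! ## Appendix: the equation lemmas of the definition of this file are realised HERE -/

theorem eqns_realised_stepTel341 : True := by
  have _a1 := @shiftCrd341.eq_1
  have _a2 := @shiftCrd341.eq_def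
  have _a3 := @shiftCrd341.eq_unfold
  trivial

end Fermat.Agent.LT.T7.SMT341

end
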