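import Mathlib
import Fermat.Agent.LT.T7.H341.UpDatSpec

/-!
# Row LT, tower T7, node C2.7.13.1.0 `H340.UpDatC340` (helper341, registry 2742): THE TOP

OFF-MAIN.  PROVED, nothing assumed.

    upDatC_of341 : UpInertC341 K K' → UpSplitC341 K K' → UpArchC341 K K' → H340.UpDatC340 K K'

`Sin` = the places of `S` with exactly one place over them, `Ssp` = the other places of `S`; the
data are chosen place by place.
-/

set_option autoImplicit false
set_option linter.unusedSectionVars false
set_option linter.unusedVariables false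

open AutomorphicForm IsDedekindDomain NumberField MeasureTheory
open scoped ComplexConjugate

noncomputable section

namespace Fermat.Agent.LT.T7.UD341

open Fermat.Agent.LT.H556 Fermat.Agent.LT.H556.A0 Fermat.Agent.LT.T7 Fermat.Agent.LT.T7.H305
open Fermat.Agent.LT.T7.H340

attribute [local instance] Fermat.Agent.LT.T5.instMeasurableSpaceG

variable (K K' : Type) [Field K] [NumberField K] [Field K'] [NumberField K'] [Algebra K K']

/-- **THE TOP of the cut of `H340.UpDatC340`.** -/
theorem upDatC_of341 (hI : UpInertC341 K K') (hS : UpSplitC341 K K') (hA : UpArchC341 K K') :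
    UpDatC340 K K' := by
  classical
  intro hT6 D hD hcyc _hl2 hcx ι hι T₀ _hT₀ n m _hlev S S' _hTS _hSS' δ γ hγ hN L hL
  have hIn : ∀ v : {v // v ∈ S.filter (fun v => OnePlace341 K K' v)},
      ∃ d : InertDat340 δ v.1, IsInertDat340 D ι n L d := fun v => by
    obtain ⟨w, hw, hu⟩ := (Finset.mem_filter.1 v.2).2
    obtain ⟨d, -, hd⟩ := hI hT6 D hD hcyc ι hι n m δ γ hγ hN L hL v.1 w hw hu
    exact ⟨d, hd⟩
  have hSp : ∀ v : {v // v ∈ S.filter (fun v => ¬ OnePlace341 K K' v)},
      ∃ d : SplitDat340 K' v.1, IsSplitDat340 D ι d := fun v =>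
    hS hT6 D hD hcyc ι hι v.1 (Finset.mem_filter.1 v.2).2
  have hAr : ∀ v : InfinitePlace K, ∃ d : ArchDat340 K', IsArchDat340 D ι v d := fun v =>
    hA D hD hcyc hcx ι hι v
  choose dI hdI using hIn
  choose dS hdS using hSp
  choose dA hdA using hAr
  refine ⟨⟨S.filter (fun v => OnePlace341 K K' v), S.filter (fun v => ¬ OnePlace341 K K' v),
    dI, dS, dA⟩, ?_⟩
  refine
    { pos := hcyc.prime.pos
      union := ?_
      disj := ?_
      inert := hdI
      split := hdS
      arch := hdA }
  · intro v
    show v ∈ S ↔ v ∈ S.filter (fun v => OnePlace341 K K' v)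
      ∨ v ∈ S.filter (fun v => ¬ OnePlace341 K K' v)
    rw [Finset.mem_filter, Finset.mem_filter]
    constructor
    · intro hv
      by_cases h : OnePlace341 K K' v
      · exact Or.inl ⟨hv, h⟩
      · exact Or.inr ⟨hv, h⟩
    · rintro (h | h)
      · exact h.1
      · exact h.1
  · intro v hv hv'
    show False
    have h1 : v ∈ S.filter (fun v => OnePlace341 K K' v) := hv
    have h2 : v ∈ S.filter (fun v => ¬ OnePlace341 K K' v) := hv'
    exact (Finset.mem_filter.1 h2).2 (Finset.mem_filter.1 h1).2

example (hI : UpInertC341 K K') (hS : UpSplitC341 K K') (hA : UpArchC341 K K') :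
    UpDatC340 K K' := upDatC_of341 K K' hI hS hA

end Fermat.Agent.LT.T7.UD341

end
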