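import Mathlib
import Fermat.Agent.LT.T7.H341.UpDatTop
import Fermat.Agent.LT.T7.H267.UpInertClosed
import Fermat.Agent.LT.T7.H999.UpSplit
import Fermat.Agent.LT.T7.H887.UpArch

/-!
# Row LT, tower T7, node C2.7.13.1.0 `H340.UpDatC340` (helper341, registry 2742): CLOSED

OFF-MAIN.  PROVED, nothing assumed, VERBATIM vs `T7/H340/UpFactSpec.lean` (helper340, sha256
04981afb).

    upDatC_closed341 (K K') : H340.UpDatC340 K K'

The three leaves of the cut (`UpDatSpec.lean`, sha256 69bf6a59), byte-identical copies:
* `UpInertC341`: helper267, `T7/H267/UpInertClosed.lean` (`upInertC267`);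
* `UpSplitC341`: helper999, `T7/H999/UpSplit.lean` (`upSplitC999`);
* `UpArchC341`: helper887, `T7/H887/UpArch.lean` (`upArchC887`).
-/

set_option autoImplicit false

open AutomorphicForm IsDedekindDomain NumberField MeasureTheory

noncomputable section

namespace Fermat.Agent.LT.T7.UD341

open Fermat.Agent.LT.T7 Fermat.Agent.LT.T7.H305 Fermat.Agent.LT.T7.H340

variable (K K' : Type) [Field K] [NumberField K] [Field K'] [NumberField K'] [Algebra K K']

/-- **NODE C2.7.13.1.0 = UP-DAT, CLOSED.** -/
theorem upDatC_closed341 : UpDatC340 K K' :=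
  upDatC_of341 K K' (H267.upInertC267 K K') (Fermat.Agent.LT.T7.H999.upSplitC999 K K')
    (Fermat.Agent.LT.T7.H887.upArchC887 K K')

end Fermat.Agent.LT.T7.UD341

end
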