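import Mathlib
import Fermat.Agent.LT.H17.Board
import Fermat.Agent.LT.H130.Wall

/-!
# Row LT, tower T7, leaf T7.13c `ChebFC` (helper341), part 2: `GL₂(𝔽₃)` and the lift `Ψ`

OFF-MAIN.  Mathlib + the wall vocabulary only.

* `Nsub341 = {±1}`, `Qsub341 = Q₈ = {g ∈ SL₂(𝔽₃) | tr g = 0 or g = ±1}`: normal subgroups of
  `GL₂(𝔽₃)`, `Nsub341 ≤ Qsub341 ≤ ker det`, `Nsub341.index ≤ 4 * Qsub341.index`.
* `normSq_trΨ341`: for `g ∈ SL₂(𝔽₃)` and any lift `Ψ` (`red ∘ Ψ = id`), any `ι : ℤ[√-2] →+* ℂ`: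
  `‖tr Ψ g‖² = 4` on `{±1}`, `= 0` on `Q₈ ∖ {±1}`, `= 1` on `SL₂(𝔽₃) ∖ Q₈`.

The lemmas `zsqrtd_eq_zero_of_mul341`, `liftMat_neg_one341`, `trace_liftMat_eq_zero341` are those
of helper19 (`LT/H19/ParArith.lean`), restated here to keep the import closure small.
-/

set_option autoImplicit false

open FLT.ExplicitLift
open scoped MatrixGroups

namespace Fermat.Agent.LT.T7.H341

open Fermat.Agent.LT.H130

/-! ## Brute force over `𝔽₃`

v1.1 (helper341, 17:35Z; hazard note of helper41): the instance search of `decide` is given room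
(`synthInstance.maxSize`), so that the file also compiles on top of the packed chain of main
(more instances in scope).  No statement changed. -/

set_option synthInstance.maxSize 2048 in
theorem ent_mul341 : ∀ a b c d a' b' c' d' : ZMod 3, a * d - b * c = 1 → a' * d' - b' * c' = 1 →
    (a + d = 0 ∨ (b = 0 ∧ c = 0 ∧ a = d)) → (a' + d' = 0 ∨ (b' = 0 ∧ c' = 0 ∧ a' = d')) →
    ((a * a' + b * c') + (c * b' + d * d') = 0 ∨
      (a * b' + b * d' = 0 ∧ c * a' + d * c' = 0 ∧ a * a' + b * c' = c * b' + d * d')) := by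
  decide

set_option synthInstance.maxSize 2048 in
theorem ent_sc_mul341 : ∀ a b c d a' b' c' d' : ZMod 3,
    (b = 0 ∧ c = 0 ∧ a = d) → (b' = 0 ∧ c' = 0 ∧ a' = d') →
      (a * b' + b * d' = 0 ∧ c * a' + d * c' = 0 ∧ a * a' + b * c' = c * b' + d * d') := by
  decide

set_option synthInstance.maxSize 2048 in
theorem ent_sq341 : ∀ a b c d : ZMod 3, a * d - b * c = 1 → a + d = 0 →
    (a * a + b * c = -1 ∧ a * b + b * d = 0 ∧ c * a + d * c = 0 ∧ c * b + d * d = -1) := by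
  decide

set_option synthInstance.maxSize 2048 in
theorem ent_cube341 : ∀ a b c d : ZMod 3, a * d - b * c = 1 → a + d ≠ 0 →
    (((a * a + b * c) * a + (a * b + b * d) * c = 1 ∧
        (a * a + b * c) * b + (a * b + b * d) * d = 0 ∧
        (c * a + d * c) * a + (c * b + d * d) * c = 0 ∧
        (c * a + d * c) * b + (c * b + d * d) * d = 1) ∨
      ((a * a + b * c) * a + (a * b + b * d) * c = -1 ∧
        (a * a + b * c) * b + (a * b + b * d) * d = 0 ∧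
        (c * a + d * c) * a + (c * b + d * d) * c = 0 ∧
        (c * a + d * c) * b + (c * b + d * d) * d = -1)) := by
  decide

set_option synthInstance.maxSize 2048 in
theorem ent_sc341 : ∀ a b c d : ZMod 3, a * d - b * c = 1 → (b = 0 ∧ c = 0 ∧ a = d) →
    (a = 1 ∧ b = 0 ∧ c = 0 ∧ d = 1) ∨ (a = -1 ∧ b = 0 ∧ c = 0 ∧ d = -1) := by
  decide

/-! ## Matrices -/

/-- Scalar `2 × 2` matrices. -/
def IsSc341 (M : Matrix (Fin 2) (Fin 2) (ZMod 3)) : Prop :=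
  M 0 1 = 0 ∧ M 1 0 = 0 ∧ M 0 0 = M 1 1

/-- The condition defining `Q₈` inside `GL₂(𝔽₃)`. -/
def IsQm341 (M : Matrix (Fin 2) (Fin 2) (ZMod 3)) : Prop :=
  M 0 0 * M 1 1 - M 0 1 * M 1 0 = 1 ∧ (M 0 0 + M 1 1 = 0 ∨ IsSc341 M)

/-- The condition defining `{±1}` inside `GL₂(𝔽₃)`. -/
def IsNm341 (M : Matrix (Fin 2) (Fin 2) (ZMod 3)) : Prop :=
  M 0 0 * M 1 1 - M 0 1 * M 1 0 = 1 ∧ IsSc341 M

theorem mul_entry341 (A B : Matrix (Fin 2) (Fin 2) (ZMod 3)) (i j : Fin 2) :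
    (A * B) i j = A i 0 * B 0 j + A i 1 * B 1 j := by
  simp [Matrix.mul_apply, Fin.sum_univ_two]

theorem isSc_iff341 (M : Matrix (Fin 2) (Fin 2) (ZMod 3)) :
    IsSc341 M ↔ M = M 0 0 • (1 : Matrix (Fin 2) (Fin 2) (ZMod 3)) := by
  constructor
  · rintro ⟨h1, h2, h3⟩
    ext i j
    fin_cases i <;> fin_cases j <;> simp [h1, h2, ← h3]
  · intro h
    refine ⟨?_, ?_, ?_⟩
    · have := congrFun (congrFun h 0) 1
      simpa using this
    · have := congrFun (congrFun h 1) 0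
      simpa using this
    · have := congrFun (congrFun h 1) 1
      simpa using this.symm

theorem isSc_conj341 (h : GL (Fin 2) (ZMod 3)) {M : Matrix (Fin 2) (Fin 2) (ZMod 3)}
    (hM : IsSc341 M) :
    (h : Matrix (Fin 2) (Fin 2) (ZMod 3)) * M * ((h⁻¹ : GL (Fin 2) (ZMod 3)) :
      Matrix (Fin 2) (Fin 2) (ZMod 3)) = M := by
  rw [(isSc_iff341 M).mp hM, Matrix.mul_smul, Matrix.mul_one, Matrix.smul_mul]
  congr 1
  exact h.mul_inv

theorem det_conj341 (h : GL (Fin 2) (ZMod 3)) (M : Matrix (Fin 2) (Fin 2) (ZMod 3)) :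
    ((h : Matrix (Fin 2) (Fin 2) (ZMod 3)) * M * ((h⁻¹ : GL (Fin 2) (ZMod 3)) :
      Matrix (Fin 2) (Fin 2) (ZMod 3))).det = M.det :=
  Matrix.det_units_conj h M

theorem trace_conj341 (h : GL (Fin 2) (ZMod 3)) (M : Matrix (Fin 2) (Fin 2) (ZMod 3)) :
    ((h : Matrix (Fin 2) (Fin 2) (ZMod 3)) * M * ((h⁻¹ : GL (Fin 2) (ZMod 3)) :
      Matrix (Fin 2) (Fin 2) (ZMod 3))).trace = M.trace :=
  Matrix.trace_units_conj h M

theorem isQm_conj341 (h : GL (Fin 2) (ZMod 3)) {M : Matrix (Fin 2) (Fin 2) (ZMod 3)}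
    (hM : IsQm341 M) :
    IsQm341 ((h : Matrix (Fin 2) (Fin 2) (ZMod 3)) * M * ((h⁻¹ : GL (Fin 2) (ZMod 3)) :
      Matrix (Fin 2) (Fin 2) (ZMod 3))) := by
  obtain ⟨hd, ht⟩ := hM
  rcases ht with ht | ht
  · refine ⟨?_, Or.inl ?_⟩
    · rw [← Matrix.det_fin_two, det_conj341, Matrix.det_fin_two]
      exact hd
    · rw [← Matrix.trace_fin_two, trace_conj341, Matrix.trace_fin_two]
      exact ht
  · rw [isSc_conj341 h ht]
    exact ⟨hd, Or.inr ht⟩

theorem isNm_conj341 (h : GL (Fin 2) (ZMod 3)) {M : Matrix (Fin 2) (Fin 2) (ZMod 3)}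
    (hM : IsNm341 M) :
    IsNm341 ((h : Matrix (Fin 2) (Fin 2) (ZMod 3)) * M * ((h⁻¹ : GL (Fin 2) (ZMod 3)) :
      Matrix (Fin 2) (Fin 2) (ZMod 3))) := by
  rw [isSc_conj341 h hM.2]
  exact hM

theorem isQm_mul341 {A B : Matrix (Fin 2) (Fin 2) (ZMod 3)} (hA : IsQm341 A) (hB : IsQm341 B) :
    IsQm341 (A * B) := by
  refine ⟨?_, ?_⟩
  · rw [← Matrix.det_fin_two, Matrix.det_mul, Matrix.det_fin_two, Matrix.det_fin_two, hA.1, hB.1,
      mul_one]
  · have := ent_mul341 (A 0 0) (A 0 1) (A 1 0) (A 1 1) (B 0 0) (B 0 1) (B 1 0) (B 1 1)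
      hA.1 hB.1 hA.2 hB.2
    simp only [IsSc341, mul_entry341]
    exact this

theorem isNm_mul341 {A B : Matrix (Fin 2) (Fin 2) (ZMod 3)} (hA : IsNm341 A) (hB : IsNm341 B) :
    IsNm341 (A * B) := by
  refine ⟨?_, ?_⟩
  · rw [← Matrix.det_fin_two, Matrix.det_mul, Matrix.det_fin_two, Matrix.det_fin_two, hA.1, hB.1,
      mul_one]
  · have := ent_sc_mul341 (A 0 0) (A 0 1) (A 1 0) (A 1 1) (B 0 0) (B 0 1) (B 1 0) (B 1 1)
      hA.2 hB.2
    simp only [IsSc341, mul_entry341]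
    exact this

theorem isNm_one341 : IsNm341 (1 : Matrix (Fin 2) (Fin 2) (ZMod 3)) := by
  refine ⟨?_, ?_, ?_, ?_⟩ <;> simp

/-- The inverse of a matrix of determinant one. -/
theorem inv_entries341 (g : GL (Fin 2) (ZMod 3))
    (hd : (g : Matrix (Fin 2) (Fin 2) (ZMod 3)) 0 0 * (g : Matrix (Fin 2) (Fin 2) (ZMod 3)) 1 1 -
      (g : Matrix (Fin 2) (Fin 2) (ZMod 3)) 0 1 * (g : Matrix (Fin 2) (Fin 2) (ZMod 3)) 1 0 = 1) :
    ((g⁻¹ : GL (Fin 2) (ZMod 3)) : Matrix (Fin 2) (Fin 2) (ZMod 3)) =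
      !![(g : Matrix (Fin 2) (Fin 2) (ZMod 3)) 1 1, -(g : Matrix (Fin 2) (Fin 2) (ZMod 3)) 0 1;
         -(g : Matrix (Fin 2) (Fin 2) (ZMod 3)) 1 0, (g : Matrix (Fin 2) (Fin 2) (ZMod 3)) 0 0] := by
  rw [Matrix.coe_units_inv, Matrix.inv_def, Matrix.det_fin_two, hd, Ring.inverse_one, one_smul,
    Matrix.adjugate_fin_two]

theorem isQm_inv341 (g : GL (Fin 2) (ZMod 3))
    (hg : IsQm341 (g : Matrix (Fin 2) (Fin 2) (ZMod 3))) :
    IsQm341 ((g⁻¹ : GL (Fin 2) (ZMod 3)) : Matrix (Fin 2) (Fin 2) (ZMod 3)) := by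
  obtain ⟨hd, ht⟩ := hg
  rw [inv_entries341 g hd]
  refine ⟨?_, ?_⟩
  · simp only [Matrix.of_apply, Matrix.cons_val', Matrix.cons_val_zero, Matrix.cons_val_one,
      Matrix.cons_val_fin_one]
    rw [← hd]
    ring
  · rcases ht with ht | ⟨h1, h2, h3⟩
    · left
      simp only [Matrix.of_apply, Matrix.cons_val', Matrix.cons_val_zero, Matrix.cons_val_one,
        Matrix.cons_val_fin_one]
      rw [← ht]
      ring
    · right
      refine ⟨?_, ?_, ?_⟩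
      · simp [h1]
      · simp [h2]
      · simp [h3]

theorem isNm_inv341 (g : GL (Fin 2) (ZMod 3))
    (hg : IsNm341 (g : Matrix (Fin 2) (Fin 2) (ZMod 3))) :
    IsNm341 ((g⁻¹ : GL (Fin 2) (ZMod 3)) : Matrix (Fin 2) (Fin 2) (ZMod 3)) := by
  obtain ⟨hd, h1, h2, h3⟩ := hg
  rw [inv_entries341 g hd]
  refine ⟨?_, ?_, ?_, ?_⟩
  · simp only [Matrix.of_apply, Matrix.cons_val', Matrix.cons_val_zero, Matrix.cons_val_one,
      Matrix.cons_val_fin_one]
    rw [← hd]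
    ring
  · simp [h1]
  · simp [h2]
  · simp [h3]

/-! ## The subgroups -/

/-- `Q₈ ⊂ GL₂(𝔽₃)`. -/
def Qsub341 : Subgroup (GL (Fin 2) (ZMod 3)) where
  carrier := {g | IsQm341 (g : Matrix (Fin 2) (Fin 2) (ZMod 3))}
  one_mem' := ⟨isNm_one341.1, Or.inr isNm_one341.2⟩
  mul_mem' := fun {a b} ha hb => by
    show IsQm341 ((a * b : GL (Fin 2) (ZMod 3)) : Matrix (Fin 2) (Fin 2) (ZMod 3))
    rw [Units.val_mul]
    exact isQm_mul341 ha hb
  inv_mem' := fun {a} ha => isQm_inv341 a ha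

/-- `{±1} ⊂ GL₂(𝔽₃)`. -/
def Nsub341 : Subgroup (GL (Fin 2) (ZMod 3)) where
  carrier := {g | IsNm341 (g : Matrix (Fin 2) (Fin 2) (ZMod 3))}
  one_mem' := isNm_one341
  mul_mem' := fun {a b} ha hb => by
    show IsNm341 ((a * b : GL (Fin 2) (ZMod 3)) : Matrix (Fin 2) (Fin 2) (ZMod 3))
    rw [Units.val_mul]
    exact isNm_mul341 ha hb
  inv_mem' := fun {a} ha => isNm_inv341 a ha

theorem mem_Qsub341 (g : GL (Fin 2) (ZMod 3)) :
    g ∈ Qsub341 ↔ IsQm341 (g : Matrix (Fin 2) (Fin 2) (ZMod 3)) := Iff.rfl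

theorem mem_Nsub341 (g : GL (Fin 2) (ZMod 3)) :
    g ∈ Nsub341 ↔ IsNm341 (g : Matrix (Fin 2) (Fin 2) (ZMod 3)) := Iff.rfl

instance Qsub_normal341 : Qsub341.Normal where
  conj_mem := fun n hn h => by
    show IsQm341 ((h * n * h⁻¹ : GL (Fin 2) (ZMod 3)) : Matrix (Fin 2) (Fin 2) (ZMod 3))
    rw [Units.val_mul, Units.val_mul]
    exact isQm_conj341 h hn

instance Nsub_normal341 : Nsub341.Normal where
  conj_mem := fun n hn h => by
    show IsNm341 ((h * n * h⁻¹ : GL (Fin 2) (ZMod 3)) : Matrix (Fin 2) (Fin 2) (ZMod 3))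
    rw [Units.val_mul, Units.val_mul]
    exact isNm_conj341 h hn

theorem Nsub_le_Qsub341 : Nsub341 ≤ Qsub341 := fun _ hg => ⟨hg.1, Or.inr hg.2⟩

theorem det_eq_one_iff341 (g : GL (Fin 2) (ZMod 3)) :
    Matrix.GeneralLinearGroup.det g = 1 ↔
      (g : Matrix (Fin 2) (Fin 2) (ZMod 3)) 0 0 * (g : Matrix (Fin 2) (Fin 2) (ZMod 3)) 1 1 -
        (g : Matrix (Fin 2) (Fin 2) (ZMod 3)) 0 1 * (g : Matrix (Fin 2) (Fin 2) (ZMod 3)) 1 0
        = 1 := by
  rw [← Matrix.det_fin_two, Units.ext_iff]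
  rfl

theorem det_of_mem_Qsub341 {g : GL (Fin 2) (ZMod 3)} (hg : g ∈ Qsub341) :
    Matrix.GeneralLinearGroup.det g = 1 :=
  (det_eq_one_iff341 g).mpr hg.1

/-! ## Cardinalities -/

/-- The entries of a matrix. -/
def entries341 (g : GL (Fin 2) (ZMod 3)) : ZMod 3 × ZMod 3 × ZMod 3 × ZMod 3 :=
  ((g : Matrix (Fin 2) (Fin 2) (ZMod 3)) 0 0, (g : Matrix (Fin 2) (Fin 2) (ZMod 3)) 0 1,
    (g : Matrix (Fin 2) (Fin 2) (ZMod 3)) 1 0, (g : Matrix (Fin 2) (Fin 2) (ZMod 3)) 1 1)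

theorem entries_injective341 : Function.Injective entries341 := by
  intro g h hgh
  simp only [entries341, Prod.mk.injEq] at hgh
  obtain ⟨h1, h2, h3, h4⟩ := hgh
  apply Units.ext
  ext i j
  fin_cases i <;> fin_cases j
  · exact h1
  · exact h2
  · exact h3
  · exact h4

/-- The tuples of entries of the elements of `Q₈`. -/
def qTuples341 : Finset (ZMod 3 × ZMod 3 × ZMod 3 × ZMod 3) :=
  Finset.univ.filter fun t =>
    t.1 * t.2.2.2 - t.2.1 * t.2.2.1 = 1 ∧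
      (t.1 + t.2.2.2 = 0 ∨ (t.2.1 = 0 ∧ t.2.2.1 = 0 ∧ t.1 = t.2.2.2))

theorem card_qTuples341 : qTuples341.card = 8 := by decide

theorem card_Qsub_le341 : Nat.card Qsub341 ≤ 8 := by
  have h : Nat.card Qsub341 ≤ Nat.card qTuples341 := by
    refine Nat.card_le_card_of_injective
      (fun g : Qsub341 => (⟨entries341 g.1, ?_⟩ : qTuples341)) ?_
    · rw [qTuples341, Finset.mem_filter]
      exact ⟨Finset.mem_univ _, g.2⟩
    · intro g h hgh
      have := congrArg Subtype.val hgh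
      exact Subtype.ext (entries_injective341 this)
  have h8 : Nat.card qTuples341 = 8 := by
    rw [Nat.card_eq_fintype_card, Fintype.card_coe, card_qTuples341]
  rw [h8] at h
  exact h

theorem neg_one_mem_Nsub341 : (-1 : GL (Fin 2) (ZMod 3)) ∈ Nsub341 := by
  show IsNm341 ((-1 : GL (Fin 2) (ZMod 3)) : Matrix (Fin 2) (Fin 2) (ZMod 3))
  rw [Units.val_neg, Units.val_one]
  refine ⟨?_, ?_, ?_, ?_⟩ <;> simp

theorem two_le_card_Nsub341 : 2 ≤ Nat.card Nsub341 := by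
  haveI : Nontrivial Nsub341 := by
    refine ⟨⟨⟨-1, neg_one_mem_Nsub341⟩, 1, ?_⟩⟩
    intro h
    have h1 := congrArg (fun x : Nsub341 => ((x : GL (Fin 2) (ZMod 3)) :
      Matrix (Fin 2) (Fin 2) (ZMod 3)) 0 0) h
    simp only [Subgroup.coe_one, Units.val_neg, Units.val_one, Matrix.neg_apply,
      Matrix.one_apply_eq] at h1
    revert h1
    decide
  exact Finite.one_lt_card

/-- `[GL₂(𝔽₃) : {±1}] ≤ 4 [GL₂(𝔽₃) : Q₈]`. -/
theorem index_Nsub_le341 : Nsub341.index ≤ 4 * Qsub341.index := by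
  have h1 : Nsub341.relIndex Qsub341 * Qsub341.index = Nsub341.index :=
    Subgroup.relIndex_mul_index Nsub_le_Qsub341
  have h2 : Nat.card (Nsub341.subgroupOf Qsub341) * (Nsub341.subgroupOf Qsub341).index
      = Nat.card Qsub341 := Subgroup.card_mul_index _
  have h3 : Nat.card (Nsub341.subgroupOf Qsub341) = Nat.card Nsub341 :=
    Nat.card_congr (Subgroup.subgroupOfEquivOfLe Nsub_le_Qsub341).toEquiv
  have h4 : Nsub341.relIndex Qsub341 = (Nsub341.subgroupOf Qsub341).index := rfl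
  have h5 := card_Qsub_le341
  have h6 := two_le_card_Nsub341
  rw [h3, ← h4] at h2
  have h7 : Nsub341.relIndex Qsub341 ≤ 4 := by
    by_contra hc
    have hc' : 5 ≤ Nsub341.relIndex Qsub341 := by omega
    have : 2 * 5 ≤ Nat.card Nsub341 * Nsub341.relIndex Qsub341 := Nat.mul_le_mul h6 hc'
    omega
  rw [← h1]
  exact Nat.mul_le_mul_right _ h7

end Fermat.Agent.LT.T7.H341
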