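import Fermat.Agent.Lib.Cheb.H943.Bridge
import Fermat.Agent.Lib.Cheb.H943.Frob
import Fermat.Agent.Lib.Cheb.H764.Count

/-!
# Row LT, tower T7, leaf T7.13c `ChebFC` (helper341), part 1: splitting in Galois number fields

OFF-MAIN.  For a finite Galois extension `K ⊆ ℚ̄` of `ℚ`, a prime number `p` not dividing
`H943.badNat K`, and ANY Frobenius element `(A, σ)` at `p` in the Prelude's sense:

* `primeCount_of_fix341` : if `σ` fixes `K` pointwise, then `K` has exactly `[K : ℚ]` primes of
  norm `p`;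
* `primeCount_of_not_fix341` : otherwise `K` has no prime of norm `p`.

Also the Galois dictionary `galois_of_open_normal341` for open normal subgroups of `Gal(ℚ̄/ℚ)`.
Inputs (all on main): `Lib.Cheb.H943` (Bridge, Frob), `Lib.Cheb.H764` (Orbit, Count).
-/

set_option autoImplicit false
set_option linter.unusedSectionVars false
set_option linter.unusedVariables false
set_option linter.style.haveILetI false

open NumberField Ideal MulAction
open scoped Pointwise

namespace Fermat.Agent.LT.T7.H341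

open Fermat.Agent.Lib.Cheb Fermat.Agent.Lib.Cheb.Spec

/-! ## The Galois dictionary -/

/-- For an open normal subgroup `H` of `Gal(ℚ̄/ℚ)`: the fixed field is a finite Galois extension
of `ℚ` of degree `[G : H]`, and `σ` fixes it pointwise iff `σ ∈ H`. -/
theorem isGalois_Qb341 : IsGalois ℚ Qb := by
  haveI : Algebra.IsAlgebraic ℚ Qb := AlgebraicClosure.isAlgebraic ℚ
  haveI : IsAlgClosure ℚ Qb := ⟨inferInstance, inferInstance⟩
  haveI : Normal ℚ Qb := IsAlgClosure.normal ℚ Qb
  exact ⟨⟩

theorem galois_of_open_normal341 (H : Subgroup GQ) (hH : IsOpen (H : Set GQ)) [hN : H.Normal] :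
    FiniteDimensional ℚ (IntermediateField.fixedField H) ∧
      IsGalois ℚ (IntermediateField.fixedField H) ∧
      (∀ σ : GQ, (∀ x ∈ IntermediateField.fixedField H, σ x = x) ↔ σ ∈ H) ∧
      Module.finrank ℚ (IntermediateField.fixedField H) = H.index := by
  haveI := isGalois_Qb341
  have hcl : IsClosed (H : Set GQ) := Subgroup.isClosed_of_isOpen H hH
  have hfix : (IntermediateField.fixedField H).fixingSubgroup = H :=
    InfiniteGalois.fixingSubgroup_fixedField (k := ℚ) (K := Qb) ⟨H, hcl⟩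
  refine ⟨?_, ?_, ?_, ?_⟩
  · rw [← InfiniteGalois.isOpen_iff_finite]
    show IsOpen ((IntermediateField.fixedField H).fixingSubgroup : Set GQ)
    rw [hfix]
    exact hH
  · have h : (IntermediateField.fixedField H).fixingSubgroup.Normal := by
      rw [hfix]
      exact hN
    have h2 := (InfiniteGalois.normal_iff_isGalois (IntermediateField.fixedField H)).mp h
    convert h2 using 1
    exact Subsingleton.elim _ _
  · intro σ
    constructor
    · intro h
      have h1 : σ ∈ (IntermediateField.fixedField H).fixingSubgroup :=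
        (IntermediateField.mem_fixingSubgroup_iff _ σ).mpr h
      rwa [hfix] at h1
    · intro h x hx
      have h1 : σ ∈ (IntermediateField.fixedField H).fixingSubgroup := by rwa [hfix]
      exact (IntermediateField.mem_fixingSubgroup_iff _ σ).mp h1 x hx
  · rw [IntermediateField.finrank_eq_fixingSubgroup_index, hfix]

/-! ## The prime of `𝓞 K` below a valuation subring of `ℚ̄` -/

section Below

variable (K : IntermediateField ℚ Qb)

/-- The prime of `𝓞 K` below the valuation subring `A` of `ℚ̄`. -/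
noncomputable def below341 (A : ValuationSubring Qb) : Ideal (𝓞 K) :=
  Ideal.comap (H943.embInt K) (Fermat.Agent.S54.primeBelow A)

theorem mem_below341 (A : ValuationSubring Qb) (x : 𝓞 K) :
    x ∈ below341 K A ↔ H943.emb K x ∈ A.nonunits := Iff.rfl

theorem below341_isPrime (A : ValuationSubring Qb) : (below341 K A).IsPrime := by
  haveI := Fermat.Agent.S54.primeBelow_isPrime A
  exact Ideal.comap_isPrime _ _

theorem natCast_mem_below341 {A : ValuationSubring Qb} {p : ℕ} (hA : A.LiesOverPrime p) :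
    (p : 𝓞 K) ∈ below341 K A := by
  rw [mem_below341]
  have h : H943.emb K (p : 𝓞 K) = (p : Qb) := map_natCast (H943.emb K) p
  rw [h]
  exact hA

end Below

/-! ## Splitting -/

section Split

variable (K : IntermediateField ℚ Qb) [NumberField K] [IsGalois ℚ K]

/-- The restriction of `σ` to `K` is trivial iff `σ` fixes `K` pointwise. -/
theorem restrict_eq_one_iff341 (σ : GQ) :
    AlgEquiv.restrictNormalHom K σ = 1 ↔ ∀ x ∈ K, σ x = x := by
  constructor
  · intro h x hx
    have h1 := AlgEquiv.restrictNormal_commutes σ K ⟨x, hx⟩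
    have h2 : σ.restrictNormal K = 1 := h
    rw [h2] at h1
    exact h1.symm
  · intro h
    apply AlgEquiv.ext
    intro x
    apply Subtype.ext
    have h1 := AlgEquiv.restrictNormal_commutes σ K x
    exact h1.trans (h _ x.2)

/-- Core facts at a good prime. -/
theorem split_core341 {p : ℕ} (hp : p.Prime) (hpB : ¬ p ∣ H943.badNat K)
    (A : ValuationSubring Qb) (hA : A.LiesOverPrime p) (σ : GQ) (hσ : A.IsFrobeniusAt σ p) :
    ((Ideal.span {(p : ℤ)}).primesOver (𝓞 K)).ncard *
        (below341 K A).inertiaDeg ℤ = Module.finrank ℚ K ∧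
      ((below341 K A).inertiaDeg ℤ = 1 ↔ ∀ x ∈ K, σ x = x) ∧
      ∀ Q : Ideal (𝓞 K), Q.IsPrime → (p : 𝓞 K) ∈ Q →
        Q.inertiaDeg ℤ = (below341 K A).inertiaDeg ℤ := by
  classical
  haveI hP : (below341 K A).IsPrime := below341_isPrime K A
  have hpP : (p : 𝓞 K) ∈ below341 K A := natCast_mem_below341 K hA
  have hne : below341 K A ≠ ⊥ := H943.prime_ne_bot hp hpP
  haveI hmax : (below341 K A).IsMaximal := Ideal.IsPrime.isMaximal hP hne
  have hτ : IsArithFrobAt ℤ (AlgEquiv.restrictNormalHom K σ) (below341 K A) :=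
    H943.isArithFrobAt_restrict K hp hmax hpP (fun x hx => hx) hσ
  obtain ⟨hU, hI, -⟩ := H943.frob_of_not_dvd_badNat hp hpB (below341 K A) hP hpP
  haveI := hU
  have hdec : Spec.decomp K (below341 K A) = Subgroup.zpowers (AlgEquiv.restrictNormalHom K σ) :=
    H943.decomp_eq_zpowers hp hpP hI hτ
  haveI hsp : (Ideal.span {(p : ℤ)}).IsPrime := H764.span_isPrime hp
  haveI hlo : (below341 K A).LiesOver (Ideal.span {(p : ℤ)}) :=
    H764.liesOver_of_mem hp (below341 K A) hpP
  have he : (below341 K A).ramificationIdx ℤ = 1 :=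
    Ideal.ramificationIdx_eq_one_of_isUnramifiedAt
  have hcard : Nat.card (stabilizer (K ≃ₐ[ℚ] K) (below341 K A)) = (below341 K A).inertiaDeg ℤ := by
    rw [H764.card_stabilizer_eq_mul (G := K ≃ₐ[ℚ] K) (Ideal.span {(p : ℤ)}) (below341 K A), he,
      one_mul]
  have horb := H764.ncard_primesOver_mul_card_stabilizer_aux (G := K ≃ₐ[ℚ] K)
    (Ideal.span {(p : ℤ)}) (below341 K A)
  rw [hcard, IsGalois.card_aut_eq_finrank] at horb
  refine ⟨horb, ?_, ?_⟩
  · rw [← hcard, ← restrict_eq_one_iff341 K σ]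
    have hd : stabilizer (K ≃ₐ[ℚ] K) (below341 K A) =
        Subgroup.zpowers (AlgEquiv.restrictNormalHom K σ) := hdec
    rw [hd, Subgroup.card_eq_one, Subgroup.zpowers_eq_bot]
  · intro Q hQ hpQ
    haveI := hQ
    haveI : Q.LiesOver (Ideal.span {(p : ℤ)}) := H764.liesOver_of_mem hp Q hpQ
    exact Ideal.inertiaDeg_eq_of_isGaloisGroup (Ideal.span {(p : ℤ)}) Q (below341 K A)
      (K ≃ₐ[ℚ] K)

/-- The primes of norm `p` are the primes over `p` of residue degree one. -/
theorem absNorm_eq_iff341 {p : ℕ} (hp : p.Prime) (Q : Ideal (𝓞 K)) (hQ : Q.IsPrime) :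
    Ideal.absNorm Q = p ↔ (p : 𝓞 K) ∈ Q ∧ Q.inertiaDeg ℤ = 1 := by
  haveI := hQ
  constructor
  · intro h
    have hmem : (p : 𝓞 K) ∈ Q := by
      have := Ideal.absNorm_mem Q
      rwa [h] at this
    haveI : Q.LiesOver (Ideal.span {(p : ℤ)}) := H764.liesOver_of_mem hp Q hmem
    refine ⟨hmem, ?_⟩
    have h1 := Ideal.pow_inertiaDeg p Q
    rw [h] at h1
    exact Nat.pow_right_injective hp.two_le (by simpa using h1)
  · rintro ⟨hmem, hf⟩
    haveI : Q.LiesOver (Ideal.span {(p : ℤ)}) := H764.liesOver_of_mem hp Q hmem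
    have h1 := Ideal.pow_inertiaDeg p Q
    rw [hf, pow_one] at h1
    exact h1.symm

/-- **Splitting, case 1**: if a Frobenius element at the good prime `p` fixes `K` pointwise, then
`K` has exactly `[K : ℚ]` primes of norm `p`. -/
theorem primeCount_of_fix341 {p : ℕ} (hp : p.Prime) (hpB : ¬ p ∣ H943.badNat K)
    (A : ValuationSubring Qb) (hA : A.LiesOverPrime p) (σ : GQ) (hσ : A.IsFrobeniusAt σ p)
    (hfix : ∀ x ∈ K, σ x = x) : primeCount K p = Module.finrank ℚ K := by
  obtain ⟨h1, h2, h3⟩ := split_core341 K hp hpB A hA σ hσ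
  have hf : (below341 K A).inertiaDeg ℤ = 1 := h2.mpr hfix
  rw [hf, mul_one] at h1
  rw [← h1]
  unfold primeCount
  rw [← Nat.card_coe_set_eq]
  refine Nat.card_congr (Equiv.subtypeEquivRight fun Q => ?_)
  constructor
  · rintro ⟨hQ, hn⟩
    obtain ⟨hmem, -⟩ := (absNorm_eq_iff341 K hp Q hQ).mp hn
    haveI := hQ
    exact ⟨hQ, H764.liesOver_of_mem hp Q hmem⟩
  · rintro ⟨hQ, hlo⟩
    haveI := hQ
    haveI := hlo
    have hmem : (p : 𝓞 K) ∈ Q := H764.mem_of_liesOver hp Q
    exact ⟨hQ, (absNorm_eq_iff341 K hp Q hQ).mpr ⟨hmem, (h3 Q hQ hmem).trans hf⟩⟩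

/-- **Splitting, case 2**: if a Frobenius element at the good prime `p` does not fix `K`
pointwise, then `K` has no prime of norm `p`. -/
theorem primeCount_of_not_fix341 {p : ℕ} (hp : p.Prime) (hpB : ¬ p ∣ H943.badNat K)
    (A : ValuationSubring Qb) (hA : A.LiesOverPrime p) (σ : GQ) (hσ : A.IsFrobeniusAt σ p)
    (hfix : ¬ ∀ x ∈ K, σ x = x) : primeCount K p = 0 := by
  obtain ⟨h1, h2, h3⟩ := split_core341 K hp hpB A hA σ hσ
  unfold primeCount
  rw [Nat.card_eq_zero]
  left
  refine ⟨fun Q => ?_⟩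
  obtain ⟨hmem, hf⟩ := (absNorm_eq_iff341 K hp Q.1 Q.2.1).mp Q.2.2
  exact hfix (h2.mp ((h3 Q.1 Q.2.1 hmem).symm.trans hf))

end Split

end Fermat.Agent.LT.T7.H341
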